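import Fermat.Agent.EllFrob.Main
import Fermat.Agent.EC.InertiaSub
import Fermat.Prelude.Def_EllipticCurve_FrobeniusTrace

/-!
# The characteristic equation of Frobenius elements on torsion points over `ℚ̄`
-/

set_option autoImplicit false
set_option linter.unusedSectionVars false

namespace Fermat.Agent.EllFrob

open WeierstrassCurve WeierstrassCurve.Affine WeierstrassCurve.Affine.Point Polynomial

variable {K : Type*} [Field K] [CharZero K] [Algebra ℚ K] {ℓ : ℕ} [Fact ℓ.Prime]

lemma charP_residue {A : ValuationSubring K} (hA : A.LiesOverPrime ℓ) :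
    CharP (IsLocalRing.ResidueField A) ℓ := by
  have h0 : ((ℓ : ℕ) : IsLocalRing.ResidueField A) = 0 := by
    rw [← map_natCast (IsLocalRing.residue A), IsLocalRing.residue_eq_zero_iff]
    rw [IsLocalRing.mem_maximalIdeal, mem_nonunits_iff]
    intro hu
    have h1 : A.valuation (((ℓ : A) : K)) = 1 := (A.valuation_eq_one_iff _).mp hu
    have h2 : A.valuation (ℓ : K) < 1 := (A.mem_nonunits_iff).mp hA
    have h3 : ((ℓ : A) : K) = (ℓ : K) := by push_cast; rfl
    rw [h3] at h1
    exact absurd h1 h2.ne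
  exact (CharP.charP_iff_prime_eq_zero Fact.out).mpr h0

lemma isUnit_intCast {A : ValuationSubring K} (hA : A.LiesOverPrime ℓ) {n : ℤ}
    (hn : ¬ (ℓ : ℤ) ∣ n) : IsUnit (n : A) := by
  have := charP_residue hA
  by_contra hu
  have h0 : IsLocalRing.residue A (n : A) = 0 := by
    rw [IsLocalRing.residue_eq_zero_iff]; exact hu
  rw [map_intCast] at h0
  exact hn ((CharP.intCast_eq_zero_iff _ ℓ n).mp h0)

variable (W : WeierstrassCurve ℤ)

/-- Good reduction at places above good primes. -/
noncomputable def goodRed (hgood : W.IsGoodPrimeFor ℓ) {A : ValuationSubring K}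
    (hA : A.LiesOverPrime ℓ) [Algebra (ZMod ℓ) (IsLocalRing.ResidueField A)] :
    GoodRed A ((W.map (Int.castRingHom ℚ))⁄K) ((W.reductionMod ℓ)⁄(IsLocalRing.ResidueField A)) where
  WA := W.map (Int.castRingHom A)
  hE := by
    show _ = (W.map (Int.castRingHom ℚ)).map (algebraMap ℚ K)
    rw [WeierstrassCurve.map_map, WeierstrassCurve.map_map]
    congr 1
    exact Subsingleton.elim _ _
  hE' := by
    show _ = (W.map (Int.castRingHom (ZMod ℓ))).map (algebraMap (ZMod ℓ) _)
    rw [WeierstrassCurve.map_map, WeierstrassCurve.map_map]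
    congr 1
    exact Subsingleton.elim _ _
  hΔ := by
    rw [WeierstrassCurve.map_Δ]
    exact isUnit_intCast hA hgood

variable [DecidableEq K]

lemma red_smul (hgood : W.IsGoodPrimeFor ℓ) {A : ValuationSubring K}
    (hA : A.LiesOverPrime ℓ) [Algebra (ZMod ℓ) (IsLocalRing.ResidueField A)] [IsAlgClosed K]
    [DecidableEq (IsLocalRing.ResidueField A)] {σ : K ≃ₐ[ℚ] K} (hσ : A.IsFrobeniusAt σ ℓ)
    (P : ((W.map (Int.castRingHom ℚ))⁄K).Point) :
    (goodRed W hgood hA).red (σ • P) = frP (W.reductionMod ℓ) _ ((goodRed W hgood hA).red P) := by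
  rcases P with _ | ⟨x, y, h⟩
  · rfl
  · have hmem := EC.mem_iff_of_mem_decomposition A hσ.mem_decompositionSubgroup
    rw [algEquiv_smul_def, map_some]
    by_cases hx : x ∈ A
    · have hy := (goodRed W hgood hA).y_mem h.1 hx
      lift x to A using hx
      lift y to A using hy
      have hσx : σ x ∈ A := (hmem x).mpr x.2
      have hσy : σ y ∈ A := (hmem y).mpr y.2
      have key : ∀ (z : A) (hz : σ z ∈ A), IsLocalRing.residue A ⟨σ z, hz⟩ =
          (IsLocalRing.residue A z) ^ ℓ := by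
        intro z hz
        rw [← hσ.smul_residue_eq, ← IsLocalRing.ResidueField.residue_smul]
        rfl
      have hns := (WeierstrassCurve.Affine.baseChange_nonsingular (W.map (Int.castRingHom ℚ))
        (f := σ.toAlgHom) (σ.toAlgHom.injective) (x : K) y).mpr h
      have e1 : (goodRed W hgood hA).red (Point.some (σ.toAlgHom (x : K)) (σ.toAlgHom (y : K)) hns)
          = _ := (goodRed W hgood hA).red_some (x := ⟨σ x, hσx⟩) (y := ⟨σ y, hσy⟩) hns
      rw [e1, (goodRed W hgood hA).red_some, frP, map_some]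
      refine some_congr ?_ ?_ _
      · rw [key, fr_apply]
      · rw [key, fr_apply]
    · have hσx : σ x ∉ A := fun h => hx ((hmem x).mp h)
      rw [(goodRed W hgood hA).red_some_of_notMem hx, _root_.map_zero]
      exact (goodRed W hgood hA).red_some_of_notMem hσx _

lemma red_injective (hgood : W.IsGoodPrimeFor ℓ) {A : ValuationSubring K}
    (hA : A.LiesOverPrime ℓ) [Algebra (ZMod ℓ) (IsLocalRing.ResidueField A)] [IsAlgClosed K]
    [DecidableEq (IsLocalRing.ResidueField A)] {n : ℕ} (hn : Odd n) (hnℓ : ¬ ℓ ∣ n)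
    {P : ((W.map (Int.castRingHom ℚ))⁄K).Point} (hP : n • P = 0)
    (h0 : (goodRed W hgood hA).red P = 0) : P = 0 := by
  rcases ((goodRed W hgood hA).red_eq_zero_iff P).mp h0 with h | ⟨x, y, hxy, rfl, hx⟩
  · exact h
  · exfalso
    apply hx
    rw [← A.valuation_le_one_iff]
    refine (goodRed W hgood hA).isInt.torsion_integral hn ?_ hxy hP
    have h1 : IsUnit ((n : ℤ) : A) := isUnit_intCast hA (by exact_mod_cast hnℓ)
    have h2 := (A.valuation_eq_one_iff _).mp h1
    have h3 : (((n : ℤ) : A) : K) = (n : K) := by push_cast; rfl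
    rwa [h3] at h2

/-- **Frobenius elements satisfy the characteristic equation** on torsion points of order prime
to `ℓ`. -/
theorem frobenius_rel [IsAlgClosed K] (hgood : W.IsGoodPrimeFor ℓ) {A : ValuationSubring K}
    (hA : A.LiesOverPrime ℓ) {σ : K ≃ₐ[ℚ] K} (hσ : A.IsFrobeniusAt σ ℓ) {n : ℕ} (hn : Odd n)
    (hnℓ : ¬ ℓ ∣ n) {P : ((W.map (Int.castRingHom ℚ))⁄K).Point} (hP : n • P = 0) :
    σ • σ • P - W.apOfModel ℓ • σ • P + (ℓ : ℤ) • P = 0 := by
  classical
  have := charP_residue hA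
  let _ : Algebra (ZMod ℓ) (IsLocalRing.ResidueField A) := ZMod.algebra _ ℓ
  have hell : (W.reductionMod ℓ).IsElliptic := ⟨by
    rw [WeierstrassCurve.reductionMod, WeierstrassCurve.map_Δ]
    apply Ne.isUnit
    intro h0
    exact hgood ((ZMod.intCast_zmod_eq_zero_iff_dvd _ _).mp h0)⟩
  have hsm : ∀ (m : ℤ) (Q : ((W.map (Int.castRingHom ℚ))⁄K).Point), n • Q = 0 →
      n • (m • Q) = 0 := by
    intro m Q hQ
    rw [smul_comm, hQ, zsmul_zero]
  have hs : ∀ (Q : ((W.map (Int.castRingHom ℚ))⁄K).Point), n • Q = 0 → n • (σ • Q) = 0 := by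
    intro Q hQ
    have h1 : σ • (n • Q) = n • (σ • Q) := (Point.map σ.toAlgHom).map_nsmul n Q
    rw [← h1, hQ]; rfl
  refine red_injective W hgood hA hn hnℓ ?_ ?_
  · rw [smul_add, smul_sub, hs _ (hs _ hP), hsm _ _ (hs _ hP), hsm _ _ hP]
    simp
  · have h1 := frobenius_char (W.reductionMod ℓ) ((goodRed W hgood hA).red P)
    rw [← red_smul W hgood hA hσ, ← red_smul W hgood hA hσ] at h1
    rw [map_add, map_sub, map_zsmul, map_zsmul]
    exact h1

/-- **Hasse bound** for integral models. -/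
theorem hasse_bound_model (hgood : W.IsGoodPrimeFor ℓ) : W.apOfModel ℓ ^ 2 ≤ 4 * (ℓ : ℤ) := by
  have hell : (W.reductionMod ℓ).IsElliptic := ⟨by
    rw [WeierstrassCurve.reductionMod, WeierstrassCurve.map_Δ]
    apply Ne.isUnit
    intro h0
    exact hgood ((ZMod.intCast_zmod_eq_zero_iff_dvd _ _).mp h0)⟩
  exact hasse_bound _

end Fermat.Agent.EllFrob
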