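import Mathlib.AlgebraicGeometry.EllipticCurve.Affine.AddSubMap
import Mathlib.Tactic

/-!
# The addition-and-subtraction map on x-coordinates
-/

set_option autoImplicit false

namespace Fermat.Agent.EllFrob

open WeierstrassCurve WeierstrassCurve.Affine WeierstrassCurve.Affine.Point

/-- the map `(x(P)x(Q), x(P)+x(Q), 1) ↦ (x(P+Q)x(P-Q), x(P+Q)+x(P-Q), 1)` -/
def G {R : Type*} [CommRing R] (W : WeierstrassCurve R) (v : Fin 3 → R) : Fin 3 → R :=
  ![v 0 ^ 2 - W.b₄ * v 0 * v 2 - W.b₆ * v 1 * v 2 - W.b₈ * v 2 ^ 2,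
    2 * v 1 * v 0 + W.b₂ * v 0 * v 2 + W.b₄ * v 1 * v 2 + W.b₆ * v 2 ^ 2,
    v 1 ^ 2 - 4 * v 0 * v 2]

lemma G_eq {R : Type*} [CommRing R] (W : WeierstrassCurve R) (v : Fin 3 → R) :
    G W v = fun i ↦ (addSubMap W i).eval v := by
  ext i
  fin_cases i <;> simp [G, addSubMap]

lemma G_ne_zero {R : Type*} [CommRing R] [IsReduced R] (W : WeierstrassCurve R) [W.IsElliptic]
    {v : Fin 3 → R} (hv : v ≠ 0) : G W v ≠ 0 := by
  rw [G_eq]; exact addSubMap_ne_zero W hv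

lemma G_smul {R : Type*} [CommRing R] (W : WeierstrassCurve R) (c : R) (v : Fin 3 → R) :
    G W (c • v) = c ^ 2 • G W v := by
  ext i
  fin_cases i <;> simp [G] <;> ring

lemma G_map {R S : Type*} [CommRing R] [CommRing S] (f : R →+* S) (W : WeierstrassCurve R)
    (v : Fin 3 → R) : G (W.map f) (f ∘ v) = f ∘ G W v := by
  ext i
  fin_cases i <;> simp [G, map_ofNat]

lemma G_span {R : Type*} [CommRing R] (W : WeierstrassCurve R) [W.IsElliptic] (v : Fin 3 → R)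
    (i : Fin 3) : v i ^ 4 ∈ Ideal.span (Set.range (G W v)) := by
  rw [← addSubMapCoeff_condition W v i]
  refine Ideal.sum_mem _ fun j _ => Ideal.mul_mem_left _ _ (Ideal.subset_span ⟨j, ?_⟩)
  rw [G_eq]

section Field

variable {K : Type*} [Field K] [DecidableEq K] {W : WeierstrassCurve K}

lemma G_sym2x_ne {x₁ y₁ x₂ y₂ : K} (h₁ : W.toAffine.Nonsingular x₁ y₁)
    (h₂ : W.toAffine.Nonsingular x₂ y₂) (hx : x₁ ≠ x₂) :
    G W (sym2x (some x₁ y₁ h₁) (some x₂ y₂ h₂)) =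
      (x₁ - x₂) ^ 2 • sym2x (some x₁ y₁ h₁ + some x₂ y₂ h₂) (some x₁ y₁ h₁ - some x₂ y₂ h₂) := by
  have hx' : x₁ - x₂ ≠ 0 := sub_ne_zero.mpr hx
  have E₁ := (equation_iff _ _).mp h₁.1
  have E₂ := (equation_iff _ _).mp h₂.1
  rw [sub_eq_add_neg (some x₁ y₁ h₁), neg_some, add_of_X_ne hx, add_of_X_ne hx]
  simp only [sym2x_some_some, slope_of_X_ne hx, addX, negY]
  set lp := (y₁ - y₂) / (x₁ - x₂) with hlp
  set lm := (y₁ - (-y₂ - W.a₁ * x₂ - W.a₃)) / (x₁ - x₂) with hlm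
  have elp : lp * (x₁ - x₂) = y₁ - y₂ := div_mul_cancel₀ _ hx'
  have elm : lm * (x₁ - x₂) = y₁ + y₂ + W.a₁ * x₂ + W.a₃ := by
    rw [hlm, div_mul_cancel₀ _ hx']; ring
  set A := (W.a₂ + x₁ + x₂) * (x₁ - x₂) ^ 2 with hA
  set g₁ := x₁ ^ 3 + W.a₂ * x₁ ^ 2 + W.a₄ * x₁ + W.a₆ with hg₁
  set g₂ := x₂ ^ 3 + W.a₂ * x₂ ^ 2 + W.a₄ * x₂ + W.a₆ with hg₂
  set k₁ := W.a₁ * x₁ + W.a₃ with hk₁
  set k₂ := W.a₁ * x₂ + W.a₃ with hk₂
  set U := 2 * y₁ * y₂ + k₂ * y₁ + k₁ * y₂ with hU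
  have hNp : (lp ^ 2 + W.a₁ * lp - W.a₂ - x₁ - x₂) * (x₁ - x₂) ^ 2 = g₁ + g₂ - A - U := by
    have : (lp ^ 2 + W.a₁ * lp - W.a₂ - x₁ - x₂) * (x₁ - x₂) ^ 2 =
      (lp * (x₁ - x₂)) ^ 2 + W.a₁ * (lp * (x₁ - x₂)) * (x₁ - x₂) - A := by rw [hA]; ring
    rw [this, elp, hU, hk₁, hk₂]
    linear_combination E₁ + E₂
  have hNm : (lm ^ 2 + W.a₁ * lm - W.a₂ - x₁ - x₂) * (x₁ - x₂) ^ 2 =
      g₁ + g₂ - A + U + k₁ * k₂ := by
    have : (lm ^ 2 + W.a₁ * lm - W.a₂ - x₁ - x₂) * (x₁ - x₂) ^ 2 =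
      (lm * (x₁ - x₂)) ^ 2 + W.a₁ * (lm * (x₁ - x₂)) * (x₁ - x₂) - A := by rw [hA]; ring
    rw [this, elm, hU, hk₁, hk₂]
    linear_combination E₁ + E₂
  have hUU : U * (U + k₁ * k₂) = (4 * g₂ + k₂ ^ 2) * g₁ + k₁ ^ 2 * g₂ := by
    rw [hU]
    linear_combination (2 * y₂ + k₂) ^ 2 * E₁ + (k₁ ^ 2 + 4 * g₁) * E₂
  ext i
  fin_cases i
  · simp only [G, Fin.zero_eta, Matrix.cons_val_zero, Matrix.cons_val_one, Matrix.cons_val,
      Pi.smul_apply, smul_eq_mul]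
    have hne : (x₁ - x₂) ^ 2 ≠ 0 := pow_ne_zero _ hx'
    apply mul_right_cancel₀ hne
    have e : (x₁ - x₂) ^ 2 * ((lp ^ 2 + W.a₁ * lp - W.a₂ - x₁ - x₂) *
        (lm ^ 2 + W.a₁ * lm - W.a₂ - x₁ - x₂)) * (x₁ - x₂) ^ 2 =
        ((lp ^ 2 + W.a₁ * lp - W.a₂ - x₁ - x₂) * (x₁ - x₂) ^ 2) *
        ((lm ^ 2 + W.a₁ * lm - W.a₂ - x₁ - x₂) * (x₁ - x₂) ^ 2) := by ring
    rw [e, hNp, hNm]
    have e2 : (g₁ + g₂ - A - U) * (g₁ + g₂ - A + U + k₁ * k₂) =
        (g₁ + g₂ - A) ^ 2 + (g₁ + g₂ - A) * k₁ * k₂ - U * (U + k₁ * k₂) := by ring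
    rw [e2, hUU, hA, hg₁, hg₂, hk₁, hk₂]
    simp only [WeierstrassCurve.b₂, WeierstrassCurve.b₄, WeierstrassCurve.b₆, WeierstrassCurve.b₈]
    ring
  · simp only [G, Fin.mk_one, Matrix.cons_val_zero, Matrix.cons_val_one, Matrix.cons_val,
      Pi.smul_apply, smul_eq_mul]
    have e : (x₁ - x₂) ^ 2 * (lp ^ 2 + W.a₁ * lp - W.a₂ - x₁ - x₂ +
        (lm ^ 2 + W.a₁ * lm - W.a₂ - x₁ - x₂)) =
        ((lp ^ 2 + W.a₁ * lp - W.a₂ - x₁ - x₂) * (x₁ - x₂) ^ 2) +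
        ((lm ^ 2 + W.a₁ * lm - W.a₂ - x₁ - x₂) * (x₁ - x₂) ^ 2) := by ring
    rw [e, hNp, hNm, hA, hg₁, hg₂, hk₁, hk₂]
    simp only [WeierstrassCurve.b₂, WeierstrassCurve.b₄, WeierstrassCurve.b₆, WeierstrassCurve.b₈]
    ring
  · simp only [G, Fin.reduceFinMk, Matrix.cons_val_zero, Matrix.cons_val_one, Matrix.cons_val,
      Pi.smul_apply, smul_eq_mul]
    ring

lemma G_sym2x_self [W.IsElliptic] (P : W.toAffine.Point) :
    ∃ c : K, c ≠ 0 ∧ G W (sym2x P P) = c • sym2x (P + P) 0 := by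
  rcases P with _ | ⟨x, y, h⟩
  · refine ⟨1, one_ne_zero, ?_⟩
    rw [← zero_def, add_zero, sym2x_zero_zero, one_smul]
    ext i
    fin_cases i <;> simp [G]
  · have E := (equation_iff _ _).mp h.1
    have hv : sym2x (some x y h) (some x y h) ≠ 0 := sym2x_ne_zero _ _
    have hG := G_ne_zero W hv
    have e1 : G W (sym2x (some x y h) (some x y h)) 1 = (2 * y + W.a₁ * x + W.a₃) ^ 2 := by
      simp only [G, sym2x_some_some, Matrix.cons_val_zero, Matrix.cons_val_one, Matrix.cons_val,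
        WeierstrassCurve.b₂, WeierstrassCurve.b₄, WeierstrassCurve.b₆]
      linear_combination -4 * E
    have e2 : G W (sym2x (some x y h) (some x y h)) 2 = 0 := by
      simp only [G, sym2x_some_some, Matrix.cons_val_zero, Matrix.cons_val_one, Matrix.cons_val]
      ring
    have e0 : G W (sym2x (some x y h) (some x y h)) 0 =
        x ^ 4 - W.b₄ * x ^ 2 - 2 * W.b₆ * x - W.b₈ := by
      simp only [G, sym2x_some_some, Matrix.cons_val_zero, Matrix.cons_val_one, Matrix.cons_val]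
      ring
    by_cases hy : y = W.toAffine.negY x y
    · have hψ : 2 * y + W.a₁ * x + W.a₃ = 0 := by
        rw [negY] at hy; linear_combination hy
      rw [hψ, zero_pow two_ne_zero] at e1
      refine ⟨G W (sym2x (some x y h) (some x y h)) 0, ?_, ?_⟩
      · intro h0
        apply hG
        ext i
        fin_cases i
        · exact h0
        · exact e1
        · exact e2
      · rw [add_self_of_Y_eq hy, sym2x_zero_zero]
        ext i
        fin_cases i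
        · simp
        · simpa using e1
        · simpa using e2
    · have hψ : 2 * y + W.a₁ * x + W.a₃ ≠ 0 := by
        intro h0
        apply hy
        rw [negY]; linear_combination h0
      refine ⟨(2 * y + W.a₁ * x + W.a₃) ^ 2, pow_ne_zero _ hψ, ?_⟩
      rw [add_self_of_Y_ne hy, sym2x_some_zero]
      ext i
      fin_cases i
      · simp only [Fin.zero_eta, Pi.smul_apply, smul_eq_mul, Matrix.cons_val_zero]
        rw [e0, addX, slope_of_Y_ne rfl hy]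
        have hd : y - W.toAffine.negY x y = 2 * y + W.a₁ * x + W.a₃ := by rw [negY]; ring
        rw [hd]
        set ψ := 2 * y + W.a₁ * x + W.a₃ with hψd
        set l := (3 * x ^ 2 + 2 * W.a₂ * x + W.a₄ - W.a₁ * y) / ψ with hl
        have el : l * ψ = 3 * x ^ 2 + 2 * W.a₂ * x + W.a₄ - W.a₁ * y := div_mul_cancel₀ _ hψ
        have : ψ ^ 2 * (l ^ 2 + W.a₁ * l - W.a₂ - x - x) =
          (l * ψ) ^ 2 + W.a₁ * (l * ψ) * ψ - (W.a₂ + 2 * x) * ψ ^ 2 := by ring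
        rw [this, el, hψd]
        simp only [WeierstrassCurve.b₄, WeierstrassCurve.b₆, WeierstrassCurve.b₈]
        linear_combination (W.a₁ ^ 2 + 4 * (W.a₂ + 2 * x)) * E
      · simpa using e1
      · simpa using e2

/-- `addSubMap` does what it is claimed to do. -/
theorem G_sym2x [W.IsElliptic] (P Q : W.toAffine.Point) :
    ∃ c : K, c ≠ 0 ∧ G W (sym2x P Q) = c • sym2x (P + Q) (P - Q) := by
  by_cases h1 : P = Q
  · subst h1
    rw [sub_self]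
    exact G_sym2x_self P
  by_cases h2 : P = -Q
  · subst h2
    obtain ⟨c, hc, e⟩ := G_sym2x_self Q
    refine ⟨c, hc, ?_⟩
    rw [sym2x_neg_left, neg_add_cancel, sym2x_comm, e, ← sym2x_neg_left, neg_add,
      ← sub_eq_add_neg, sym2x_comm]
  rcases P with _ | ⟨x₁, y₁, h₁⟩
  · rcases Q with _ | ⟨x₂, y₂, h₂⟩
    · exact absurd rfl h1
    · refine ⟨1, one_ne_zero, ?_⟩
      rw [← zero_def, zero_add, zero_sub, one_smul, sym2x_neg_right, sym2x_zero_some,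
        sym2x_some_some]
      ext i
      fin_cases i <;> simp [G] <;> ring
  · rcases Q with _ | ⟨x₂, y₂, h₂⟩
    · refine ⟨1, one_ne_zero, ?_⟩
      rw [← zero_def, add_zero, sub_zero, one_smul, sym2x_some_zero,
        sym2x_some_some]
      ext i
      fin_cases i <;> simp [G] <;> ring
    · have hx : x₁ ≠ x₂ := by
        intro hx
        rcases X_eq_iff.mp hx with h | h
        · exact h1 h
        · exact h2 h
      exact ⟨_, pow_ne_zero _ (sub_ne_zero.mpr hx), G_sym2x_ne h₁ h₂ hx⟩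

end Field

end Fermat.Agent.EllFrob
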