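import Fermat.Agent.EllFrob.Generic
import Mathlib.NumberTheory.LegendreSymbol.QuadraticChar.Basic

/-!
# The degree of `1 - φ` is the number of rational points
-/

set_option autoImplicit false
set_option linter.unusedSectionVars false

namespace Fermat.Agent.EllFrob

open WeierstrassCurve WeierstrassCurve.Affine WeierstrassCurve.Affine.Point Polynomial

section Abstract

variable {k : Type*} [Field k] [Fintype k] [DecidableEq k]

lemma sq_dvd_iff {N : k[X]} {a : k} :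
    (X - C a) ^ 2 ∣ N ↔ N.eval a = 0 ∧ (derivative N).eval a = 0 := by
  constructor
  · rintro ⟨M, rfl⟩
    simp [derivative_mul, derivative_pow]
  · rintro ⟨h1, h2⟩
    obtain ⟨M, rfl⟩ := dvd_iff_isRoot.mpr h1
    simp only [derivative_mul, derivative_sub, derivative_X, derivative_C, sub_zero, one_mul,
      eval_add, eval_mul, eval_sub, eval_X, eval_C, sub_self, zero_mul, add_zero] at h2
    obtain ⟨M', rfl⟩ := dvd_iff_isRoot.mpr h2
    exact ⟨M', by ring⟩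

lemma prod_X_sub_C_univ : ∏ a : k, (X - C a) = X ^ Fintype.card k - X := by
  have h1 : (X ^ Fintype.card k - X : k[X]).Monic := by
    apply monic_X_pow_sub
    rw [degree_X]
    exact_mod_cast Fintype.one_lt_card
  have h2 := FiniteField.roots_X_pow_card_sub_X k
  have h3 : (X ^ Fintype.card k - X : k[X]).natDegree = Fintype.card k :=
    FiniteField.X_pow_card_sub_X_natDegree_eq k Fintype.one_lt_card
  have h4 := prod_multiset_X_sub_C_of_monic_of_roots_card_eq h1 (by rw [h2, h3]; rfl)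
  rw [h2] at h4
  rw [← h4]; rfl

/-- Local conditions imply the height. -/
theorem exists_pair {N : k[X]} {n : k → ℕ} (hdeg : N.natDegree = 2 * Fintype.card k + 1)
    (hL : ∀ a, (n a = 2 ∧ N.eval a ≠ 0) ∨
      (n a = 1 ∧ N.eval a = 0 ∧ (derivative N).eval a ≠ 0) ∨
      (n a = 0 ∧ N.eval a = 0 ∧ (derivative N).eval a = 0)) :
    ∃ p q G : k[X], IsCoprime p q ∧ G ≠ 0 ∧ p * G = N ∧ q * G = (X ^ Fintype.card k - X) ^ 2 ∧
      max p.natDegree q.natDegree = 1 + ∑ a, n a := by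
  have hn : ∀ a, n a ≤ 2 := by
    intro a; rcases hL a with h | h | h <;> omega
  set G : k[X] := ∏ a, (X - C a) ^ (2 - n a) with hG
  set q : k[X] := ∏ a, (X - C a) ^ (n a) with hq
  have hN0 : N ≠ 0 := by
    intro h0; rw [h0, natDegree_zero] at hdeg; omega
  have hG0 : G ≠ 0 := Finset.prod_ne_zero_iff.mpr fun a _ => pow_ne_zero _ (X_sub_C_ne_zero a)
  have hq0 : q ≠ 0 := Finset.prod_ne_zero_iff.mpr fun a _ => pow_ne_zero _ (X_sub_C_ne_zero a)
  have hdvd : G ∣ N := by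
    refine Finset.prod_dvd_of_coprime (fun a _ b _ hab => ?_) fun a _ => ?_
    · exact (isCoprime_X_sub_C_of_isUnit_sub (sub_ne_zero.mpr hab).isUnit).pow
    · rcases hL a with h | h | h
      · rw [h.1]; simp
      · rw [h.1]; simpa using dvd_iff_isRoot.mpr h.2.1
      · rw [h.1]; exact sq_dvd_iff.mpr h.2
  obtain ⟨p, hp⟩ := hdvd
  have hp0 : p ≠ 0 := by rintro rfl; rw [mul_zero] at hp; exact hN0 hp
  have hGd : G.natDegree = ∑ a, (2 - n a) := by
    rw [hG, natDegree_prod_of_monic _ _ fun a _ => (monic_X_sub_C a).pow _]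
    refine Finset.sum_congr rfl fun a _ => ?_
    rw [natDegree_pow, natDegree_X_sub_C, mul_one]
  have hqd : q.natDegree = ∑ a, n a := by
    rw [hq, natDegree_prod_of_monic _ _ fun a _ => (monic_X_sub_C a).pow _]
    refine Finset.sum_congr rfl fun a _ => ?_
    rw [natDegree_pow, natDegree_X_sub_C, mul_one]
  have hsum : ∑ a, (2 - n a) + ∑ a, n a = 2 * Fintype.card k := by
    rw [← Finset.sum_add_distrib, Finset.sum_congr rfl (g := fun _ => 2)]
    · simp [mul_comm]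
    · intro a _; have := hn a; omega
  have hpd : p.natDegree = 1 + ∑ a, n a := by
    have := congrArg natDegree hp
    rw [natDegree_mul hG0 hp0, hdeg, hGd] at this
    omega
  refine ⟨p, q, G, ?_, hG0, by rw [hp, mul_comm], ?_, ?_⟩
  · rw [hq]
    refine IsCoprime.prod_right fun a _ => ?_
    by_cases ha : n a = 0
    · rw [ha, pow_zero]; exact isCoprime_one_right
    refine IsCoprime.pow_right ?_
    have hirr : Irreducible (X - C a) := irreducible_X_sub_C a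
    rw [isCoprime_comm, hirr.coprime_iff_not_dvd]
    intro hd
    have h2 : (X - C a) ^ (2 - n a) ∣ G := Finset.dvd_prod_of_mem _ (Finset.mem_univ a)
    have h3 : (X - C a) ^ (2 - n a + 1) ∣ N := by
      rw [hp, pow_succ]; exact mul_dvd_mul h2 hd
    rcases hL a with h | h | h
    · rw [h.1] at h3
      exact h.2 (dvd_iff_isRoot.mp (by simpa using h3))
    · rw [h.1] at h3
      exact h.2.2 (sq_dvd_iff.mp h3).2
    · exact ha h.1
  · rw [← prod_X_sub_C_univ, ← Finset.prod_pow, hq, hG, ← Finset.prod_mul_distrib]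
    refine Finset.prod_congr rfl fun a _ => ?_
    rw [← pow_add]; congr 1; have := hn a; omega
  · rw [hpd, hqd]; omega

end Abstract

section Card

variable {k : Type*} [Field k] [Fintype k] [DecidableEq k] (W : WeierstrassCurve k) [W.IsElliptic]

/-- number of points above `x` -/
def nx (x : k) : ℕ :=
  (Finset.univ.filter fun y : k => y ^ 2 + W.a₁ * x * y + W.a₃ * y =
    x ^ 3 + W.a₂ * x ^ 2 + W.a₄ * x + W.a₆).card

lemma card_point : Nat.card W.toAffine.Point = 1 + ∑ x, nx W x := by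
  have e1 : Nat.card W.toAffine.Point =
      Nat.card (Option {xy : k × k // W.toAffine.Equation xy.1 xy.2}) :=
    Nat.card_congr (pointEquiv W.toAffine)
  rw [e1, Finite.card_option, add_comm]
  congr 1
  rw [Nat.card_congr (Equiv.subtypeProdEquivSigmaSubtype fun x y => W.toAffine.Equation x y),
    Nat.card_sigma]
  refine Finset.sum_congr rfl fun x _ => ?_
  have e2 : {y : k // W.toAffine.Equation x y} ≃ {y : k // y ^ 2 + W.a₁ * x * y + W.a₃ * y =
      x ^ 3 + W.a₂ * x ^ 2 + W.a₄ * x + W.a₆} := Equiv.subtypeEquivRight fun y => equation_iff _ _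
  rw [Nat.card_congr e2, Nat.card_eq_fintype_card, Fintype.card_subtype, nx]

end Card

section Odd

variable {ℓ : ℕ} [Fact ℓ.Prime] (W : WeierstrassCurve (ZMod ℓ))

/-- the discriminant polynomial -/
noncomputable def dl : (ZMod ℓ)[X] :=
  C 4 * X ^ 3 + C W.b₂ * X ^ 2 + C (2 * W.b₄) * X + C W.b₆

/-- four times the numerator of `x(P - φP)` -/
noncomputable def N4 : (ZMod ℓ)[X] :=
  dl W * (1 + dl W ^ ((ℓ - 1) / 2)) ^ 2 - C (W.a₁ ^ 2) * (X ^ ℓ - X) ^ 2 -
    C 4 * (C W.a₂ + X + X ^ ℓ) * (X ^ ℓ - X) ^ 2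

lemma dl_expand : dl W ^ ℓ = C 4 * X ^ (3 * ℓ) + C W.b₂ * X ^ (2 * ℓ) + C (2 * W.b₄) * X ^ ℓ +
    C W.b₆ := by
  have : dl W ^ ℓ = expand (ZMod ℓ) ℓ (dl W) := (ZMod.expand_card (dl W)).symm
  rw [this, dl]
  simp only [map_add, map_mul, map_pow, expand_C, expand_X]
  ring

lemma natDegree_dl_le : (dl W).natDegree ≤ 3 := by
  rw [dl]; compute_degree

lemma N4_eq (hℓ : ℓ ≠ 2) : N4 W = C 4 * X ^ (2 * ℓ + 1) + (dl W + 2 * dl W ^ ((ℓ - 1) / 2 + 1) +
    C W.b₂ * X ^ (2 * ℓ) + C (2 * W.b₄) * X ^ ℓ + C W.b₆ - C (W.a₁ ^ 2) * (X ^ ℓ - X) ^ 2 -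
    C 4 * C W.a₂ * (X ^ ℓ - X) ^ 2 + C 4 * X ^ (ℓ + 2) - C 4 * X ^ 3) := by
  have hodd : ℓ = 2 * ((ℓ - 1) / 2) + 1 := by
    have := (Fact.out : ℓ.Prime).eq_two_or_odd
    omega
  have h1 : dl W * (1 + dl W ^ ((ℓ - 1) / 2)) ^ 2 = dl W + 2 * dl W ^ ((ℓ - 1) / 2 + 1) +
      dl W ^ ℓ := by
    have hpow : dl W ^ ℓ = dl W ^ (2 * ((ℓ - 1) / 2) + 1) := congrArg (fun n => dl W ^ n) hodd
    rw [hpow]
    ring
  rw [N4, h1, dl_expand]
  ring

lemma natDegree_N4 (hℓ : ℓ ≠ 2) : (N4 W).natDegree = 2 * ℓ + 1 := by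
  have hp : ℓ.Prime := Fact.out
  have h3 : 3 ≤ ℓ := by have := hp.two_le; omega
  have h4 : (4 : ZMod ℓ) ≠ 0 := by
    have h2 : (2 : ZMod ℓ) ≠ 0 := by
      intro h
      have : ((2 : ℕ) : ZMod ℓ) = 0 := by exact_mod_cast h
      rw [ZMod.natCast_eq_zero_iff] at this
      exact hℓ ((Nat.prime_dvd_prime_iff_eq hp Nat.prime_two).mp this)
    have : (4 : ZMod ℓ) = 2 * 2 := by norm_num
    rw [this]; exact mul_ne_zero h2 h2
  rw [N4_eq W hℓ]
  set R := dl W + 2 * dl W ^ ((ℓ - 1) / 2 + 1) +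
    C W.b₂ * X ^ (2 * ℓ) + C (2 * W.b₄) * X ^ ℓ + C W.b₆ - C (W.a₁ ^ 2) * (X ^ ℓ - X) ^ 2 -
    C 4 * C W.a₂ * (X ^ ℓ - X) ^ 2 + C 4 * X ^ (ℓ + 2) - C 4 * X ^ 3 with hR
  have hle : R.natDegree ≤ 2 * ℓ := by
    have hX : (X ^ ℓ - X : (ZMod ℓ)[X]).natDegree ≤ ℓ := by
      refine (natDegree_sub_le _ _).trans ?_
      simp only [natDegree_X_pow, natDegree_X, max_le_iff, le_refl, true_and]; omega
    have hX2 : ((X ^ ℓ - X : (ZMod ℓ)[X]) ^ 2).natDegree ≤ 2 * ℓ := natDegree_pow_le_of_le 2 hX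
    have hd := natDegree_dl_le W
    have e1 : (dl W).natDegree ≤ 2 * ℓ := hd.trans (by omega)
    have e2 : (2 * dl W ^ ((ℓ - 1) / 2 + 1)).natDegree ≤ 2 * ℓ := by
      have : (2 : (ZMod ℓ)[X]) = C 2 := (map_ofNat C 2).symm
      rw [this]
      refine (natDegree_C_mul_le _ _).trans ((natDegree_pow_le_of_le _ hd).trans ?_)
      omega
    have e3 : (C W.b₂ * X ^ (2 * ℓ) : (ZMod ℓ)[X]).natDegree ≤ 2 * ℓ :=
      natDegree_C_mul_X_pow_le _ _
    have e4 : (C (2 * W.b₄) * X ^ ℓ : (ZMod ℓ)[X]).natDegree ≤ 2 * ℓ :=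
      (natDegree_C_mul_X_pow_le _ _).trans (by omega)
    have e5 : (C W.b₆ : (ZMod ℓ)[X]).natDegree ≤ 2 * ℓ := by rw [natDegree_C]; omega
    have e6 : (C (W.a₁ ^ 2) * (X ^ ℓ - X) ^ 2 : (ZMod ℓ)[X]).natDegree ≤ 2 * ℓ :=
      (natDegree_C_mul_le _ _).trans hX2
    have e7 : (C 4 * C W.a₂ * (X ^ ℓ - X) ^ 2 : (ZMod ℓ)[X]).natDegree ≤ 2 * ℓ := by
      rw [← C_mul]; exact (natDegree_C_mul_le _ _).trans hX2
    have e8 : (C 4 * X ^ (ℓ + 2) : (ZMod ℓ)[X]).natDegree ≤ 2 * ℓ :=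
      (natDegree_C_mul_X_pow_le _ _).trans (by omega)
    have e9 : (C 4 * X ^ 3 : (ZMod ℓ)[X]).natDegree ≤ 2 * ℓ :=
      (natDegree_C_mul_X_pow_le _ _).trans (by omega)
    have nadd : ∀ {f g : (ZMod ℓ)[X]}, f.natDegree ≤ 2 * ℓ → g.natDegree ≤ 2 * ℓ →
        (f + g).natDegree ≤ 2 * ℓ := fun hf hg =>
      (natDegree_add_le_of_le hf hg).trans (max_self _).le
    have nsub : ∀ {f g : (ZMod ℓ)[X]}, f.natDegree ≤ 2 * ℓ → g.natDegree ≤ 2 * ℓ →
        (f - g).natDegree ≤ 2 * ℓ := fun hf hg =>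
      (natDegree_sub_le_of_le hf hg).trans (max_self _).le
    exact nsub (nadd (nsub (nsub (nadd (nadd (nadd (nadd e1 e2) e3) e4) e5) e6) e7) e8) e9
  have hlead : (C 4 * X ^ (2 * ℓ + 1) : (ZMod ℓ)[X]).natDegree = 2 * ℓ + 1 :=
    natDegree_C_mul_X_pow _ _ h4
  rw [natDegree_add_eq_left_of_natDegree_lt (by rw [hlead]; omega), hlead]

variable [W.IsElliptic]

lemma two_ne_zero' (hℓ : ℓ ≠ 2) : (2 : ZMod ℓ) ≠ 0 := by
  intro h
  have : ((2 : ℕ) : ZMod ℓ) = 0 := by exact_mod_cast h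
  rw [ZMod.natCast_eq_zero_iff] at this
  exact hℓ ((Nat.prime_dvd_prime_iff_eq Fact.out Nat.prime_two).mp this)

lemma local_odd (hℓ : ℓ ≠ 2) (a : ZMod ℓ) : (nx W a = 2 ∧ (N4 W).eval a ≠ 0) ∨
      (nx W a = 1 ∧ (N4 W).eval a = 0 ∧ (derivative (N4 W)).eval a ≠ 0) ∨
      (nx W a = 0 ∧ (N4 W).eval a = 0 ∧ (derivative (N4 W)).eval a = 0) := by
  have hp : ℓ.Prime := Fact.out
  have h2 := two_ne_zero' (ℓ := ℓ) hℓ
  have hm : (ℓ - 1) / 2 ≠ 0 := by have := hp.two_le; omega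
  have haℓ : a ^ ℓ = a := ZMod.pow_card a
  set δ := (dl W).eval a with hδ
  set h := W.a₁ * a + W.a₃ with hh
  have hδ' : δ = h ^ 2 + 4 * (a ^ 3 + W.a₂ * a ^ 2 + W.a₄ * a + W.a₆) := by
    rw [hδ, dl]
    simp only [eval_add, eval_mul, eval_C, eval_pow, eval_X, WeierstrassCurve.b₂,
      WeierstrassCurve.b₄, WeierstrassCurve.b₆]
    ring
  have hN : (N4 W).eval a = δ * (1 + δ ^ ((ℓ - 1) / 2)) ^ 2 := by
    rw [N4]
    simp only [eval_sub, eval_mul, eval_add, eval_pow, eval_one, eval_C, eval_X, haℓ, sub_self]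
    ring
  set d' := (derivative (dl W)).eval a with hd'
  have hN' : (derivative (N4 W)).eval a = d' * (1 + δ ^ ((ℓ - 1) / 2)) ^ 2 +
      δ * (2 * (1 + δ ^ ((ℓ - 1) / 2)) * ((((ℓ - 1) / 2 : ℕ) : ZMod ℓ) *
        δ ^ ((ℓ - 1) / 2 - 1) * d')) := by
    rw [N4]
    simp only [derivative_sub, derivative_mul, derivative_pow, derivative_add, derivative_one,
      derivative_C, derivative_X, derivative_X_pow, eval_sub, eval_mul, eval_add, eval_pow,
      eval_one, eval_C, eval_X, haℓ, sub_self, eval_natCast, eval_zero, map_natCast]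
    ring
  -- points above a
  have hiff : ∀ y : ZMod ℓ, y ^ 2 + W.a₁ * a * y + W.a₃ * y =
      a ^ 3 + W.a₂ * a ^ 2 + W.a₄ * a + W.a₆ ↔ (2 * y + h) ^ 2 = δ := by
    intro y
    rw [hδ']
    constructor
    · intro e
      linear_combination 4 * e
    · intro e
      have h4 : (4 : ZMod ℓ) ≠ 0 := by
        have : (4 : ZMod ℓ) = 2 * 2 := by norm_num
        rw [this]; exact mul_ne_zero h2 h2
      apply mul_left_cancel₀ h4
      linear_combination e
  have hnx : nx W a = (Finset.univ.filter fun y : ZMod ℓ => (2 * y + h) ^ 2 = δ).card := by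
    rw [nx]; congr 1; ext y; simp only [Finset.mem_filter, Finset.mem_univ, true_and, hiff]
  by_cases h0 : δ = 0
  · right; left
    refine ⟨?_, ?_, ?_⟩
    · rw [hnx, Finset.card_eq_one]
      refine ⟨-h / 2, ?_⟩
      ext y
      simp only [Finset.mem_filter, Finset.mem_univ, true_and, Finset.mem_singleton, h0,
        pow_eq_zero_iff two_ne_zero]
      rw [eq_div_iff h2]
      constructor
      · intro e; linear_combination e
      · intro e; linear_combination e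
    · rw [hN, h0, zero_mul]
    · rw [hN', h0, zero_pow hm]
      simp only [add_zero, one_pow, mul_one, zero_mul]
      intro hd0
      -- singular point
      have hy : W.toAffine.Equation a (-h / 2) := by
        rw [equation_iff, hiff, h0]
        rw [mul_div_cancel₀ _ h2]; ring
      have hns := equation_iff_nonsingular.mp hy
      rw [nonsingular_iff] at hns
      rcases hns.2 with h5 | h5
      · apply h5
        have e1 : d' = 2 * (W.a₁ * h) + 4 * (3 * a ^ 2 + 2 * W.a₂ * a + W.a₄) := by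
          rw [hd', dl]
          simp only [derivative_add, derivative_mul, derivative_C, derivative_X_pow, derivative_X,
            eval_add, eval_mul, eval_C, eval_pow, eval_X, eval_natCast, zero_mul, mul_one,
            eval_zero, eval_one, WeierstrassCurve.b₂, WeierstrassCurve.b₄, WeierstrassCurve.b₆]
          simp only [Nat.cast_ofNat, Nat.add_one_sub_one, pow_one]
          rw [hh]
          ring
        rw [e1] at hd0
        have h4 : (4 : ZMod ℓ) ≠ 0 := by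
          have : (4 : ZMod ℓ) = 2 * 2 := by norm_num
          rw [this]; exact mul_ne_zero h2 h2
        apply mul_left_cancel₀ h4
        have e2 : 4 * (W.a₁ * (-h / 2)) = - 2 * (W.a₁ * h) := by
          field_simp; ring
        rw [e2]
        linear_combination -hd0
      · apply h5
        have : W.a₁ * a + W.a₃ = h := rfl
        field_simp
        linear_combination this
  · have heuler := FiniteField.pow_dichotomy (F := ZMod ℓ) (by rw [ZMod.ringChar_zmod_n]; exact hℓ) h0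
    rw [ZMod.card] at heuler
    have e12 : ℓ / 2 = (ℓ - 1) / 2 := by have := hp.eq_two_or_odd; omega
    by_cases hsq : IsSquare δ
    · left
      have h1 : δ ^ ((ℓ - 1) / 2) = 1 := by
        have := (FiniteField.isSquare_iff (F := ZMod ℓ) (by rw [ZMod.ringChar_zmod_n]; exact hℓ)
          h0).mp hsq
        rw [ZMod.card, e12] at this
        exact this
      refine ⟨?_, ?_⟩
      · obtain ⟨z, hz⟩ := hsq
        have hz0 : z ≠ 0 := by rintro rfl; exact h0 (by rw [hz, zero_mul])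
        rw [hnx, Finset.card_eq_two]
        refine ⟨(z - h) / 2, (-z - h) / 2, ?_, ?_⟩
        · intro e
          rw [div_left_inj' h2] at e
          have : 2 * z = 0 := by linear_combination e
          exact (mul_ne_zero h2 hz0) this
        · ext y
          simp only [Finset.mem_filter, Finset.mem_univ, true_and, Finset.mem_insert,
            Finset.mem_singleton, hz, ← sq z, sq_eq_sq_iff_eq_or_eq_neg, eq_div_iff h2]
          constructor
          · rintro (e | e)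
            · left; linear_combination e
            · right; linear_combination e
          · rintro (e | e)
            · left; linear_combination e
            · right; linear_combination e
      · rw [hN, h1]
        refine mul_ne_zero h0 (pow_ne_zero _ ?_)
        norm_num
        exact h2
    · right; right
      have h1 : δ ^ ((ℓ - 1) / 2) = -1 := by
        rw [e12] at heuler
        rcases heuler with h1 | h1
        · exfalso
          apply hsq
          rw [FiniteField.isSquare_iff (F := ZMod ℓ) (by rw [ZMod.ringChar_zmod_n]; exact hℓ) h0,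
            ZMod.card, e12]
          exact h1
        · exact h1
      refine ⟨?_, ?_, ?_⟩
      · rw [hnx, Finset.card_eq_zero, Finset.filter_eq_empty_iff]
        intro y _ e
        exact hsq ⟨2 * y + h, by rw [← sq]; exact e.symm⟩
      · rw [hN, h1]; ring
      · rw [hN', h1]; ring

end Odd

section Two

local instance : Fact (Nat.Prime 2) := ⟨Nat.prime_two⟩

variable (W : WeierstrassCurve (ZMod 2))

/-- the numerator of `x(P - φP)` -/
noncomputable def N2 : (ZMod 2)[X] :=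
  (X ^ 3 + C W.a₂ * X ^ 2 + C W.a₄ * X + C W.a₆) +
  (X ^ 3 + C W.a₂ * X ^ 2 + C W.a₄ * X + C W.a₆) ^ 2 +
  (X ^ 3 + C W.a₂ * X ^ 2 + C W.a₄ * X + C W.a₆) * (C W.a₁ * X + C W.a₃) +
  (C W.a₁ * X + C W.a₃) ^ 3 + (C W.a₂ + X + X ^ 2) * (X ^ 2 - X) ^ 2

lemma natDegree_N2 : (N2 W).natDegree = 2 * 2 + 1 := by
  have h2 : (2 : (ZMod 2)[X]) = 0 := by
    have : (2 : (ZMod 2)[X]) = C 2 := (map_ofNat C 2).symm
    rw [this, show (2 : ZMod 2) = 0 from rfl, C_0]
  set A : (ZMod 2)[X] := C W.a₂ * X ^ 2 + C W.a₄ * X + C W.a₆ with hA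
  set h : (ZMod 2)[X] := C W.a₁ * X + C W.a₃ with hh
  have hAd : A.natDegree ≤ 2 := by rw [hA]; compute_degree
  have hhd : h.natDegree ≤ 1 := by rw [hh]; compute_degree
  have e : N2 W = C (-1) * X ^ 5 + (X ^ 3 + A + A ^ 2 + (X ^ 3 + A) * h + h ^ 3 +
      C W.a₂ * (X ^ 2 - X) ^ 2 - X ^ 4 + X ^ 3) := by
    rw [N2, C_neg, C_1]
    linear_combination (X ^ 6 + X ^ 3 * A) * h2
  have hR : (X ^ 3 + A + A ^ 2 + (X ^ 3 + A) * h + h ^ 3 +
      C W.a₂ * (X ^ 2 - X) ^ 2 - X ^ 4 + X ^ 3 : (ZMod 2)[X]).natDegree ≤ 4 := by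
    have nadd : ∀ {f g : (ZMod 2)[X]}, f.natDegree ≤ 4 → g.natDegree ≤ 4 →
        (f + g).natDegree ≤ 4 := fun hf hg =>
      (natDegree_add_le_of_le hf hg).trans (max_self _).le
    have nsub : ∀ {f g : (ZMod 2)[X]}, f.natDegree ≤ 4 → g.natDegree ≤ 4 →
        (f - g).natDegree ≤ 4 := fun hf hg =>
      (natDegree_sub_le_of_le hf hg).trans (max_self _).le
    have e1 : (X ^ 3 : (ZMod 2)[X]).natDegree ≤ 4 := by rw [natDegree_X_pow]; omega
    have e2 : A.natDegree ≤ 4 := hAd.trans (by omega)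
    have e3 : (A ^ 2).natDegree ≤ 4 := natDegree_pow_le_of_le 2 hAd
    have e4 : ((X ^ 3 + A) * h).natDegree ≤ 4 := by
      have : (X ^ 3 + A).natDegree ≤ 3 := by
        refine (natDegree_add_le_of_le (natDegree_X_pow_le 3) hAd).trans ?_
        simp
      exact (natDegree_mul_le_of_le this hhd).trans (by norm_num)
    have e5 : (h ^ 3).natDegree ≤ 4 := (natDegree_pow_le_of_le 3 hhd).trans (by omega)
    have e6 : (C W.a₂ * (X ^ 2 - X) ^ 2).natDegree ≤ 4 := by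
      have h6 : (X ^ 2 - X : (ZMod 2)[X]).natDegree ≤ 2 := by compute_degree
      exact (natDegree_C_mul_le _ _).trans (natDegree_pow_le_of_le 2 h6)
    have e7 : (X ^ 4 : (ZMod 2)[X]).natDegree ≤ 4 := natDegree_X_pow_le 4
    exact nadd (nsub (nadd (nadd (nadd (nadd (nadd e1 e2) e3) e4) e5) e6) e7) e1
  have hlead : (C (-1) * X ^ 5 : (ZMod 2)[X]).natDegree = 5 :=
    natDegree_C_mul_X_pow _ _ (by decide)
  rw [e, natDegree_add_eq_left_of_natDegree_lt (by rw [hlead]; omega), hlead]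

private lemma two_table : ∀ a₁ a₂ a₃ a₄ a₆ a : ZMod 2,
    -(a₁ ^ 2 + 4 * a₂) ^ 2 * (a₁ ^ 2 * a₆ + 4 * a₂ * a₆ - a₁ * a₃ * a₄ + a₂ * a₃ ^ 2 - a₄ ^ 2) -
      8 * (2 * a₄ + a₁ * a₃) ^ 3 - 27 * (a₃ ^ 2 + 4 * a₆) ^ 2 +
      9 * (a₁ ^ 2 + 4 * a₂) * (2 * a₄ + a₁ * a₃) * (a₃ ^ 2 + 4 * a₆) ≠ 0 →
    ((Finset.univ.filter fun y : ZMod 2 => y ^ 2 + a₁ * a * y + a₃ * y =
      a ^ 3 + a₂ * a ^ 2 + a₄ * a + a₆).card = 2 ∧
      (a ^ 3 + a₂ * a ^ 2 + a₄ * a + a₆) + (a ^ 3 + a₂ * a ^ 2 + a₄ * a + a₆) ^ 2 +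
      (a ^ 3 + a₂ * a ^ 2 + a₄ * a + a₆) * (a₁ * a + a₃) + (a₁ * a + a₃) ^ 3 +
      (a₂ + a + a ^ 2) * (a ^ 2 - a) ^ 2 ≠ 0) ∨
    ((Finset.univ.filter fun y : ZMod 2 => y ^ 2 + a₁ * a * y + a₃ * y =
      a ^ 3 + a₂ * a ^ 2 + a₄ * a + a₆).card = 1 ∧
      (a ^ 3 + a₂ * a ^ 2 + a₄ * a + a₆) + (a ^ 3 + a₂ * a ^ 2 + a₄ * a + a₆) ^ 2 +
      (a ^ 3 + a₂ * a ^ 2 + a₄ * a + a₆) * (a₁ * a + a₃) + (a₁ * a + a₃) ^ 3 +
      (a₂ + a + a ^ 2) * (a ^ 2 - a) ^ 2 = 0 ∧
      (3 * a ^ 2 + 2 * a₂ * a + a₄) * (1 + a₁ * a + a₃) +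
      (a ^ 3 + a₂ * a ^ 2 + a₄ * a + a₆) * a₁ + (a₁ * a + a₃) ^ 2 * a₁ ≠ 0) ∨
    ((Finset.univ.filter fun y : ZMod 2 => y ^ 2 + a₁ * a * y + a₃ * y =
      a ^ 3 + a₂ * a ^ 2 + a₄ * a + a₆).card = 0 ∧
      (a ^ 3 + a₂ * a ^ 2 + a₄ * a + a₆) + (a ^ 3 + a₂ * a ^ 2 + a₄ * a + a₆) ^ 2 +
      (a ^ 3 + a₂ * a ^ 2 + a₄ * a + a₆) * (a₁ * a + a₃) + (a₁ * a + a₃) ^ 3 +
      (a₂ + a + a ^ 2) * (a ^ 2 - a) ^ 2 = 0 ∧
      (3 * a ^ 2 + 2 * a₂ * a + a₄) * (1 + a₁ * a + a₃) +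
      (a ^ 3 + a₂ * a ^ 2 + a₄ * a + a₆) * a₁ + (a₁ * a + a₃) ^ 2 * a₁ = 0) := by
  decide

lemma local_two [W.IsElliptic] (a : ZMod 2) : (nx W a = 2 ∧ (N2 W).eval a ≠ 0) ∨
      (nx W a = 1 ∧ (N2 W).eval a = 0 ∧ (derivative (N2 W)).eval a ≠ 0) ∨
      (nx W a = 0 ∧ (N2 W).eval a = 0 ∧ (derivative (N2 W)).eval a = 0) := by
  have hΔ := W.isUnit_Δ.ne_zero
  simp only [WeierstrassCurve.Δ, WeierstrassCurve.b₂, WeierstrassCurve.b₄, WeierstrassCurve.b₆,
    WeierstrassCurve.b₈] at hΔ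
  have h1 : (N2 W).eval a = (a ^ 3 + W.a₂ * a ^ 2 + W.a₄ * a + W.a₆) +
      (a ^ 3 + W.a₂ * a ^ 2 + W.a₄ * a + W.a₆) ^ 2 +
      (a ^ 3 + W.a₂ * a ^ 2 + W.a₄ * a + W.a₆) * (W.a₁ * a + W.a₃) + (W.a₁ * a + W.a₃) ^ 3 +
      (W.a₂ + a + a ^ 2) * (a ^ 2 - a) ^ 2 := by
    simp [N2]
  have h2 : (derivative (N2 W)).eval a = (3 * a ^ 2 + 2 * W.a₂ * a + W.a₄) *
      (1 + W.a₁ * a + W.a₃) + (a ^ 3 + W.a₂ * a ^ 2 + W.a₄ * a + W.a₆) * W.a₁ +
      (W.a₁ * a + W.a₃) ^ 2 * W.a₁ := by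
    have h20 : (2 : ZMod 2) = 0 := rfl
    have ha : a ^ 2 = a := ZMod.pow_card a
    simp only [N2, derivative_add, derivative_mul, derivative_sub, derivative_C, derivative_X_pow,
      derivative_X, derivative_pow, eval_add, eval_mul, eval_sub, eval_pow, eval_X, eval_C,
      eval_natCast, eval_one, eval_zero, Nat.cast_ofNat, eval_ofNat, Nat.add_one_sub_one,
      pow_one, Nat.reduceSub, zero_mul, zero_add, mul_one, add_zero]
    linear_combination ((a ^ 3 + W.a₂ * a ^ 2 + W.a₄ * a + W.a₆) *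
      (3 * a ^ 2 + 2 * W.a₂ * a + W.a₄) + (W.a₁ * a + W.a₃) ^ 2 * W.a₁) * h20 +
      ((1 + 2 * a) * (a ^ 2 - a) + 2 * (W.a₂ + a + a ^ 2) * (2 * a - 1)) * ha
  rw [h1, h2, nx]
  exact two_table _ _ _ _ _ _ hΔ

end Two

end Fermat.Agent.EllFrob
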