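import Fermat.Agent.EllFrob.AddSub
import Fermat.Agent.EC.IntTorsion

/-!
# The reduction homomorphism for elliptic curves over algebraically closed valued fields
-/

set_option autoImplicit false

namespace Fermat.Agent.EllFrob

open WeierstrassCurve WeierstrassCurve.Affine WeierstrassCurve.Affine.Point

section Formal

/-- A map between abelian groups which is additive for generic arguments is additive. -/
theorem additive_of_generic {G H : Type*} [AddCommGroup G] [AddCommGroup H] (r : G → H)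
    (hneg : ∀ P, r (-P) = -r P)
    (hG : ∀ P Q, r P ≠ 0 → r Q ≠ 0 → r P ≠ r Q → r (P + Q) = r P + r Q)
    (hpm : ∀ P Q, r P ≠ 0 → r Q = 0 → r (P + Q) = r P ∨ r (P + Q) = -r P)
    (hinf : ∀ S : Set H, S.Finite → ∃ R, r R ∉ S) (h2 : {x : H | x + x = 0}.Finite) (P Q : G) :
    r (P + Q) = r P + r Q := by
  have hex : ∀ a b c d : H, ∃ R, r R ≠ 0 ∧ r R ≠ a ∧ r R ≠ b ∧ r R ≠ c ∧ r R ≠ d ∧
      r R + r R ≠ 0 := by
    intro a b c d
    obtain ⟨R, hR⟩ := hinf ({x : H | x + x = 0} ∪ {0, a, b, c, d})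
      (h2.union (by simp))
    simp only [Set.mem_union, Set.mem_ofPred_eq, Set.mem_insert_iff, Set.mem_singleton_iff,
      not_or] at hR
    exact ⟨R, hR.2.1, hR.2.2.1, hR.2.2.2.1, hR.2.2.2.2.1, hR.2.2.2.2.2, hR.1⟩
  -- Step 1
  have step1 : ∀ P Q, r P ≠ 0 → r Q = 0 → r (P + Q) = r P := by
    intro P Q hP hQ
    rcases hpm P Q hP hQ with h | h
    · exact h
    by_cases hPP : r P = -r P
    · rw [h, ← hPP]
    exfalso
    obtain ⟨R, hR0, hRa, hRb, -, -, hR2⟩ := hex (r P) (-r P) 0 0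
    have e1 : r (P + Q + R) = -r P + r R := by
      rw [hG _ _ (by rw [h]; exact neg_ne_zero.mpr hP) hR0 (by rw [h]; exact fun h' => hRb h'.symm),
        h]
    have e2 : r (P + R) = r P + r R := hG _ _ hP hR0 fun h => hRa h.symm
    have h3 : r (P + R) ≠ 0 := by
      rw [e2]
      intro h'
      exact hRb (eq_neg_of_add_eq_zero_right h')
    have e3 : P + R + Q = P + Q + R := by abel
    rcases hpm (P + R) Q h3 hQ with h4 | h4
    · rw [e3, e1, e2] at h4
      exact hPP (add_right_cancel h4).symm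
    · rw [e3, e1, e2, neg_add] at h4
      have h5 := add_left_cancel h4
      exact hR2 (by nth_rewrite 1 [h5]; exact neg_add_cancel _)
  by_cases hP : r P = 0
  · by_cases hQ : r Q = 0
    · obtain ⟨R, hR0, -, -, -, -, hR2⟩ := hex 0 0 0 0
      have e1 : r (P + R) = r R := by rw [add_comm]; exact step1 _ _ hR0 hP
      have e2 : r (Q - R) = -r R := by
        rw [sub_eq_add_neg, add_comm]
        have := step1 (-R) Q (by rw [hneg]; exact neg_ne_zero.mpr hR0) hQ
        rw [this, hneg]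
      have e : P + Q = (P + R) + (Q - R) := by abel
      rw [e, hG _ _ (by rw [e1]; exact hR0) (by rw [e2]; exact neg_ne_zero.mpr hR0)
        (by rw [e1, e2]; exact fun h => hR2 (by nth_rewrite 1 [h]; exact neg_add_cancel _)),
        e1, e2, hP, hQ]
      abel
    · rw [add_comm, step1 _ _ hQ hP, hP, zero_add]
  · by_cases hQ : r Q = 0
    · rw [step1 _ _ hP hQ, hQ, add_zero]
    · by_cases hPQ : r P = r Q
      · obtain ⟨R, hR0, hRa, hRb, hRc, hRd, hR2⟩ := hex (r P) (-r P) (r Q) (-r Q)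
        have e1 : r (P + R) = r P + r R := hG _ _ hP hR0 fun h => hRa h.symm
        have e2 : r (Q - R) = r Q - r R := by
          rw [sub_eq_add_neg, hG _ _ hQ (by rw [hneg]; exact neg_ne_zero.mpr hR0)
            (by rw [hneg]; exact fun h => hRd (by rw [h, neg_neg])), hneg, sub_eq_add_neg]
        have e : P + Q = (P + R) + (Q - R) := by abel
        rw [e, hG, e1, e2]
        · abel
        · rw [e1]; intro h; exact hRb (eq_neg_of_add_eq_zero_right h)
        · rw [e2]; intro h; exact hRc (sub_eq_zero.mp h).symm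
        · rw [e1, e2, hPQ]
          intro h
          apply hR2
          have : r R = -r R := by
            have := add_left_cancel (h.trans (sub_eq_add_neg _ _))
            exact this
          nth_rewrite 1 [this]; exact neg_add_cancel _
      · exact hG _ _ hP hQ hPQ

end Formal

section Red

variable {K : Type*} [Field K] {A : ValuationSubring K}

/-- Reduction data: `E` over `K` has good reduction `E'`. -/
structure GoodRed (A : ValuationSubring K) (E : WeierstrassCurve K)
    (E' : WeierstrassCurve (IsLocalRing.ResidueField A)) where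
  /-- the integral model -/
  WA : WeierstrassCurve A
  hE : WA.map A.subtype = E
  hE' : WA.map (IsLocalRing.residue A) = E'
  hΔ : IsUnit WA.Δ

variable {E : WeierstrassCurve K} {E' : WeierstrassCurve (IsLocalRing.ResidueField A)}

lemma GoodRed.isElliptic (h : GoodRed A E E') : E.IsElliptic := by
  obtain ⟨WA, rfl, rfl, hΔ⟩ := h
  exact ⟨by rw [WeierstrassCurve.map_Δ]; exact hΔ.map _⟩

lemma GoodRed.isElliptic' (h : GoodRed A E E') : E'.IsElliptic := by
  obtain ⟨WA, rfl, rfl, hΔ⟩ := h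
  exact ⟨by rw [WeierstrassCurve.map_Δ]; exact hΔ.map _⟩

lemma GoodRed.isInt (h : GoodRed A E E') : EC.IsInt A.valuation E := by
  obtain ⟨WA, rfl, rfl, hΔ⟩ := h
  exact ⟨(A.valuation_le_one_iff _).mpr WA.a₁.2, (A.valuation_le_one_iff _).mpr WA.a₂.2,
    (A.valuation_le_one_iff _).mpr WA.a₃.2, (A.valuation_le_one_iff _).mpr WA.a₄.2,
    (A.valuation_le_one_iff _).mpr WA.a₆.2⟩

lemma GoodRed.valΔ (h : GoodRed A E E') : A.valuation E.Δ = 1 := by
  obtain ⟨WA, rfl, rfl, hΔ⟩ := h
  rw [WeierstrassCurve.map_Δ]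
  obtain ⟨u, hu⟩ := hΔ
  exact (A.valuation_eq_one_iff _).mp ⟨u, hu⟩

lemma GoodRed.y_mem (h : GoodRed A E E') {x y : K} (hE : E.toAffine.Equation x y) (hx : x ∈ A) :
    y ∈ A :=
  (A.valuation_le_one_iff _).mp (h.isInt.y_integral hE ((A.valuation_le_one_iff _).mpr hx))

lemma GoodRed.nonsing (h : GoodRed A E E') {x y : A} (hE : E.toAffine.Equation (x : K) y) :
    E'.toAffine.Nonsingular (IsLocalRing.residue A x) (IsLocalRing.residue A y) := by
  have := h.isElliptic'
  apply equation_iff_nonsingular.mp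
  obtain ⟨WA, rfl, rfl, hΔ⟩ := h
  have h1 : WA.toAffine.Equation x y :=
    (WeierstrassCurve.Affine.map_equation WA (f := A.subtype) Subtype.val_injective ..).mp hE
  exact WeierstrassCurve.Affine.Equation.map _ h1

open Classical in
/-- The reduction map. -/
noncomputable def GoodRed.redFun (h : GoodRed A E E') : E.toAffine.Point → E'.toAffine.Point
  | .zero => 0
  | .some x y hxy => if hx : x ∈ A then
      .some _ _ (h.nonsing (x := ⟨x, hx⟩) (y := ⟨y, h.y_mem hxy.1 hx⟩) hxy.1) else 0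

lemma GoodRed.redFun_zero (h : GoodRed A E E') : h.redFun 0 = 0 := rfl

lemma GoodRed.redFun_some (h : GoodRed A E E') {x y : A}
    (hxy : E.toAffine.Nonsingular (x : K) y) :
    h.redFun (.some _ _ hxy) = .some _ _ (h.nonsing hxy.1) := by
  rw [redFun, dif_pos x.2]

lemma GoodRed.redFun_some_of_notMem (h : GoodRed A E E') {x y : K} (hx : x ∉ A)
    (hxy : E.toAffine.Nonsingular (x : K) y) :
    h.redFun (.some _ _ hxy) = 0 := by
  rw [redFun, dif_neg hx]

/-- Case analysis. -/
lemma GoodRed.cases (h : GoodRed A E E') (P : E.toAffine.Point) :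
    h.redFun P = 0 ∨ ∃ (x y : A) (hxy : E.toAffine.Nonsingular (x : K) y), P = .some _ _ hxy := by
  rcases P with _ | ⟨x, y, hxy⟩
  · exact .inl rfl
  · by_cases hx : x ∈ A
    · exact .inr ⟨⟨x, hx⟩, ⟨y, h.y_mem hxy.1 hx⟩, hxy, rfl⟩
    · exact .inl (h.redFun_some_of_notMem hx hxy)

lemma GoodRed.redFun_neg (h : GoodRed A E E') (P : E.toAffine.Point) :
    h.redFun (-P) = -h.redFun P := by
  rcases P with _ | ⟨x, y, hxy⟩
  · rfl
  · by_cases hx : x ∈ A
    · obtain ⟨WA, rfl, rfl, hΔ⟩ := h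
      have hy := (GoodRed.mk WA rfl rfl hΔ).y_mem hxy.1 hx
      lift x to A using hx
      lift y to A using hy
      rw [GoodRed.redFun_some, neg_some, neg_some]
      have e : (WA.map A.subtype).toAffine.negY (x : K) y = ((WA.toAffine.negY x y : A) : K) := by
        simp [negY]
      have h2 := (nonsingular_neg (W' := (WA.map A.subtype).toAffine) (x : K) y).mpr hxy
      have e3 : ∀ (z : K) (hz : z = ((WA.toAffine.negY x y : A) : K))
          (hh : (WA.map A.subtype).toAffine.Nonsingular (x : K) z)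
          (hh' : (WA.map A.subtype).toAffine.Nonsingular (x : K) ((WA.toAffine.negY x y : A) : K)),
          (Point.some (x : K) z hh : (WA.map A.subtype).toAffine.Point) =
          Point.some (x : K) ((WA.toAffine.negY x y : A) : K) hh' := by
        rintro _ rfl _ _; rfl
      rw [e3 _ e _ (e ▸ h2), GoodRed.redFun_some]
      simp [negY]
    · rw [neg_some, h.redFun_some_of_notMem hx, h.redFun_some_of_notMem hx]; rfl

lemma some_congr {F : Type*} [Field F] {W : WeierstrassCurve F} {x y x' y' : F}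
    (hx : x = x') (hy : y = y') (h : W.toAffine.Nonsingular x y) :
    (Point.some x y h : W.toAffine.Point) = Point.some x' y' (hx ▸ hy ▸ h) := by
  subst hx; subst hy; rfl

variable [DecidableEq K] [DecidableEq (IsLocalRing.ResidueField A)]

lemma GoodRed.redFun_add_generic (h : GoodRed A E E') {P Q : E.toAffine.Point}
    (hP : h.redFun P ≠ 0) (hQ : h.redFun Q ≠ 0) (hPQ : h.redFun P ≠ h.redFun Q) :
    h.redFun (P + Q) = h.redFun P + h.redFun Q := by
  obtain ⟨x₁, y₁, h₁, rfl⟩ := (h.cases P).resolve_left hP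
  obtain ⟨x₂, y₂, h₂, rfl⟩ := (h.cases Q).resolve_left hQ
  by_cases hx : IsLocalRing.residue A x₁ = IsLocalRing.residue A x₂
  · rw [h.redFun_some, h.redFun_some] at hPQ ⊢
    have hneg := (X_eq_iff.mp hx : _ ∨ _).resolve_left hPQ
    rw [hneg, neg_add_cancel]
    by_cases hx' : (x₁ : K) = x₂
    · have hx'' : x₁ = x₂ := Subtype.ext hx'
      have hne : (Point.some _ _ h₁ : E.toAffine.Point) ≠ Point.some _ _ h₂ := by
        intro he
        rw [Point.some.injEq] at he
        have hy' : y₁ = y₂ := Subtype.ext he.2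
        subst hx'' hy'
        exact hPQ rfl
      rw [(X_eq_iff.mp hx' : _ ∨ _).resolve_left hne, neg_add_cancel]
      rfl
    · rw [add_of_X_ne hx']
      apply h.redFun_some_of_notMem
      rw [← A.valuation_le_one_iff, not_le]
      have hy : IsLocalRing.residue A y₁ ≠ IsLocalRing.residue A y₂ := by
        intro hy
        exact hPQ (by rw [Point.some.injEq]; exact ⟨hx, hy⟩)
      refine h.isInt.one_lt_addX ((A.valuation_le_one_iff _).mpr x₁.2)
        ((A.valuation_le_one_iff _).mpr x₂.2) ?_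
      rw [slope_of_X_ne hx']
      refine EC.one_lt_div ?_ ?_ (sub_ne_zero.mpr hx')
      · have hu : IsUnit (y₁ - y₂) := by
          by_contra hnu
          apply hy
          rw [← sub_eq_zero, ← map_sub, IsLocalRing.residue_eq_zero_iff]
          exact hnu
        exact (A.valuation_eq_one_iff (y₁ - y₂)).mp hu
      · have : (x₁ - x₂ : A) ∈ IsLocalRing.maximalIdeal A := by
          rw [← IsLocalRing.residue_eq_zero_iff, map_sub, hx, sub_self]
        exact (A.valuation_lt_one_iff (x₁ - x₂)).mp this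
  · have hx' : (x₁ : K) ≠ x₂ := fun h' => hx (by rw [Subtype.ext h'])
    have hu : IsUnit (x₁ - x₂) := by
      by_contra hnu
      apply hx
      rw [← sub_eq_zero, ← map_sub, IsLocalRing.residue_eq_zero_iff]
      exact hnu
    obtain ⟨u, hu⟩ := hu
    have hu' : (x₁ : K) - x₂ = ((u : A) : K) := by rw [hu]; rfl
    have hu2 : IsLocalRing.residue A x₁ - IsLocalRing.residue A x₂ = IsLocalRing.residue A u := by
      rw [hu, map_sub]
    set L : A := (y₁ - y₂) * ↑u⁻¹ with hL
    have hLK : E.toAffine.slope (x₁ : K) x₂ y₁ y₂ = (L : K) := by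
      rw [slope_of_X_ne hx', hu', div_eq_iff]
      · rw [hL]
        have : (↑u⁻¹ * ↑u : A) = 1 := Units.inv_mul u
        have := congrArg (Subtype.val) this
        push_cast at this ⊢
        rw [mul_assoc, this, mul_one]
      · rw [← hu', sub_ne_zero]; exact hx'
    have hLk : E'.toAffine.slope (IsLocalRing.residue A x₁) (IsLocalRing.residue A x₂)
        (IsLocalRing.residue A y₁) (IsLocalRing.residue A y₂) = IsLocalRing.residue A L := by
      rw [slope_of_X_ne hx, hu2, div_eq_iff]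
      · rw [hL, ← map_mul, mul_assoc, Units.inv_mul, mul_one, map_sub]
      · rw [← hu2, sub_ne_zero]; exact hx
    rw [h.redFun_some, h.redFun_some, add_of_X_ne hx', add_of_X_ne hx]
    obtain ⟨WA, rfl, rfl, hΔ⟩ := h
    have eX : (WA.map A.subtype).toAffine.addX (x₁ : K) x₂
        ((WA.map A.subtype).toAffine.slope (x₁ : K) x₂ y₁ y₂) =
        ((WA.toAffine.addX x₁ x₂ L : A) : K) := by
      rw [hLK]; simp [addX]
    have eY : (WA.map A.subtype).toAffine.addY (x₁ : K) x₂ y₁
        ((WA.map A.subtype).toAffine.slope (x₁ : K) x₂ y₁ y₂) =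
        ((WA.toAffine.addY x₁ x₂ y₁ L : A) : K) := by
      rw [hLK]; simp [addX, addY, negAddY, negY]
    rw [some_congr eX eY, GoodRed.redFun_some, Point.some.injEq, hLk]
    constructor
    · simp [addX]
    · simp [addX, addY, negAddY, negY]

lemma sq_sub_root {F : Type*} [Field F] {a s : F} (h : (a - s) ^ 2 = 0) : a = s :=
  sub_eq_zero.mp (pow_eq_zero_iff two_ne_zero |>.mp h)

lemma GoodRed.redFun_add_pm (h : GoodRed A E E') {P Q : E.toAffine.Point}
    (hP : h.redFun P ≠ 0) (hQ : h.redFun Q = 0) :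
    h.redFun (P + Q) = h.redFun P ∨ h.redFun (P + Q) = -h.redFun P := by
  rcases Q with _ | ⟨x₂, y₂, h₂⟩
  · left; rw [← zero_def, add_zero]
  obtain ⟨x₁, y₁, h₁, rfl⟩ := (h.cases P).resolve_left hP
  have hx₂ : x₂ ∉ A := by
    intro hx₂
    have hy₂ := h.y_mem h₂.1 hx₂
    lift x₂ to A using hx₂
    lift y₂ to A using hy₂
    rw [h.redFun_some] at hQ
    exact some_ne_zero _ hQ
  have hx : (x₁ : K) ≠ x₂ := fun he => hx₂ (he ▸ x₁.2)
  have hx20 : x₂ ≠ 0 := fun h0 => hx₂ (h0 ▸ A.zero_mem)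
  have hw : x₂⁻¹ ∈ A := (A.mem_or_inv_mem x₂).resolve_left hx₂
  obtain ⟨w, hwe⟩ : ∃ w : A, (w : K) = x₂⁻¹ := ⟨⟨_, hw⟩, rfl⟩
  have hw0 : IsLocalRing.residue A w = 0 := by
    rw [IsLocalRing.residue_eq_zero_iff, IsLocalRing.mem_maximalIdeal, mem_nonunits_iff]
    rintro ⟨u, hu⟩
    apply hx₂
    have : x₂ = ((↑u⁻¹ : A) : K) := by
      have h1 : ((u : A) : K) * ((↑u⁻¹ : A) : K) = 1 := by
        have := congrArg Subtype.val (Units.mul_inv u)
        exact this
      rw [hu, hwe] at h1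
      field_simp at h1
      exact h1.symm
    rw [this]; exact Subtype.mem _
  have hG := G_sym2x_ne (W := E) h₁ h₂ hx
  rw [sub_eq_add_neg (Point.some _ _ h₁), neg_some, add_of_X_ne hx, add_of_X_ne hx] at hG
  rw [add_of_X_ne hx]
  set x₃ := E.toAffine.addX (x₁ : K) x₂ (E.toAffine.slope (x₁ : K) x₂ y₁ y₂) with hx₃
  set x₄ := E.toAffine.addX (x₁ : K) x₂
    (E.toAffine.slope (x₁ : K) x₂ y₁ (E.toAffine.negY x₂ y₂)) with hx₄
  simp only [sym2x_some_some] at hG
  have hG0 := congrFun hG 0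
  have hG1 := congrFun hG 1
  simp only [G, Matrix.cons_val_zero, Matrix.cons_val_one, Matrix.cons_val, Pi.smul_apply,
    smul_eq_mul] at hG0 hG1
  -- rewrite in terms of w
  obtain ⟨WA, rfl, rfl, hΔ⟩ := id h
  have hUu : IsUnit (x₁ * w - 1) := by
    by_contra hnu
    have : IsLocalRing.residue A (x₁ * w - 1) = 0 := by
      rw [IsLocalRing.residue_eq_zero_iff]; exact hnu
    rw [map_sub, map_mul, hw0, mul_zero, map_one, zero_sub, neg_eq_zero] at this
    exact one_ne_zero this
  obtain ⟨u, hu⟩ := hUu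
  have huK : ((u : A) : K) ≠ 0 := by
    intro h0
    have : (u : A) = 0 := Subtype.ext h0
    exact u.ne_zero this
  have hmul : ∀ a : A, ((a * ↑(u⁻¹ ^ 2) : A) : K) = (a : K) / ((u : A) : K) ^ 2 := by
    intro a
    rw [eq_div_iff (pow_ne_zero _ huK)]
    have : (a * ↑(u⁻¹ ^ 2) : A) * (u : A) ^ 2 = a := by
      rw [mul_assoc]
      have : (↑(u⁻¹ ^ 2) : A) * (u : A) ^ 2 = 1 := by
        rw [← Units.val_pow_eq_pow_val, ← Units.val_mul, ← mul_pow, inv_mul_cancel, one_pow,
          Units.val_one]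
      rw [this, mul_one]
    exact congrArg Subtype.val this
  set S0 : A := (x₁ ^ 2 - WA.b₄ * x₁ * w - WA.b₆ * (x₁ * w + 1) * w - WA.b₈ * w ^ 2) *
    ↑(u⁻¹ ^ 2) with hS0
  set S1 : A := (2 * (x₁ * w + 1) * x₁ + WA.b₂ * x₁ * w + WA.b₄ * (x₁ * w + 1) * w +
    WA.b₆ * w ^ 2) * ↑(u⁻¹ ^ 2) with hS1
  have huw : ((u : A) : K) = (x₁ : K) * x₂⁻¹ - 1 := by rw [hu, ← hwe]; rfl
  have hxx : (x₁ : K) - x₂ = ((u : A) : K) * x₂ := by
    rw [huw]; field_simp
  have e0 : x₃ * x₄ = (S0 : K) := by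
    rw [hS0, hmul, eq_div_iff (pow_ne_zero _ huK)]
    have h3 : ((u : A) : K) ^ 2 * x₂ ^ 2 * (x₃ * x₄) = x₂ ^ 2 *
      ((x₁ : K) ^ 2 - (WA.b₄ : K) * x₁ * w - (WA.b₆ : K) * (x₁ * w + 1) * w -
        (WA.b₈ : K) * w ^ 2) := by
      rw [← mul_pow, ← hxx, ← hG0, hwe]
      simp only [map_b₄, map_b₆, map_b₈, ValuationSubring.subtype_apply]
      field_simp
    have h4 : x₂ ^ 2 ≠ 0 := pow_ne_zero _ hx20
    apply mul_left_cancel₀ h4
    push_cast
    rw [← h3]; ring
  have e1 : x₃ + x₄ = (S1 : K) := by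
    rw [hS1, hmul, eq_div_iff (pow_ne_zero _ huK)]
    have h3 : ((u : A) : K) ^ 2 * x₂ ^ 2 * (x₃ + x₄) = x₂ ^ 2 *
      (2 * ((x₁ : K) * w + 1) * x₁ + (WA.b₂ : K) * x₁ * w + (WA.b₄ : K) * (x₁ * w + 1) * w +
        (WA.b₆ : K) * w ^ 2) := by
      rw [← mul_pow, ← hxx, ← hG1, hwe]
      simp only [map_b₂, map_b₄, map_b₆, ValuationSubring.subtype_apply]
      field_simp
    have h4 : x₂ ^ 2 ≠ 0 := pow_ne_zero _ hx20
    apply mul_left_cancel₀ h4
    have h2K : ((2 : A) : K) = 2 := rfl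
    push_cast
    rw [h2K, ← h3]; ring
  have hroot : x₃ ^ 2 - (S1 : K) * x₃ + (S0 : K) = 0 := by rw [← e0, ← e1]; ring
  have hx₃A : x₃ ∈ A := by
    by_contra hn
    have h1 : 1 < A.valuation x₃ := by rw [← not_le, A.valuation_le_one_iff]; exact hn
    have h2 : A.valuation (S1 * x₃ - S0 : K) ≤ A.valuation x₃ := by
      refine A.valuation.map_sub_le ?_ (((A.valuation_le_one_iff _).mpr S0.2).trans h1.le)
      rw [map_mul]
      exact mul_le_of_le_one_left' ((A.valuation_le_one_iff _).mpr S1.2)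
    have h3 : x₃ ^ 2 = S1 * x₃ - S0 := by linear_combination hroot
    rw [← h3, map_pow, sq] at h2
    exact absurd h2 (not_le.mpr (lt_mul_of_one_lt_left (zero_lt_one.trans h1) h1))
  have hns := nonsingular_add h₁ h₂ (fun he : (x₁ : K) = x₂ ∧ _ => hx he.1)
  have hy₃A := h.y_mem hns.1 hx₃A
  obtain ⟨X₃, hX₃⟩ : ∃ X : A, (X : K) = x₃ := ⟨⟨_, hx₃A⟩, rfl⟩
  obtain ⟨Y₃, hY₃⟩ : ∃ Y : A, (Y : K) = (WA.map A.subtype).toAffine.addY (x₁ : K) x₂ y₁
    ((WA.map A.subtype).toAffine.slope (x₁ : K) x₂ y₁ y₂) := ⟨⟨_, hy₃A⟩, rfl⟩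
  rw [hx₃] at hX₃
  rw [some_congr hX₃.symm hY₃.symm, h.redFun_some, h.redFun_some]
  have hrX : IsLocalRing.residue A X₃ = IsLocalRing.residue A x₁ := by
    have h1 : X₃ ^ 2 - S1 * X₃ + S0 = 0 := by
      apply Subtype.ext
      push_cast
      rw [hX₃, ← hx₃]; exact hroot
    have h2 := congrArg (IsLocalRing.residue A) h1
    have hur : IsLocalRing.residue A (↑(u⁻¹ ^ 2) : A) = 1 := by
      have h3 : (↑(u⁻¹ ^ 2) : A) * (u : A) ^ 2 = 1 := by
        rw [← Units.val_pow_eq_pow_val, ← Units.val_mul, ← mul_pow, inv_mul_cancel, one_pow,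
          Units.val_one]
      have h4 := congrArg (IsLocalRing.residue A) h3
      rw [hu, map_mul, map_pow, map_sub, map_mul, hw0, mul_zero, map_one, zero_sub, neg_sq,
        one_pow, mul_one] at h4
      exact h4
    rw [hS1, hS0] at h2
    simp only [map_add, map_sub, map_mul, map_pow, hw0, hur, map_one, _root_.map_zero] at h2
    apply sq_sub_root
    have h5 : (IsLocalRing.residue A) (2 : A) = 2 := map_ofNat _ 2
    rw [h5] at h2
    linear_combination h2
  exact X_eq_iff.mp hrX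

end Red

section Closed

open Polynomial

lemma finite_of_finite_x {F : Type*} [Field F] [DecidableEq F] {W : WeierstrassCurve F} {S : Set F}
    (hS : S.Finite) : {P : W.toAffine.Point | ∃ x ∈ S, P.xRep = ![x, 1]}.Finite := by
  have : {P : W.toAffine.Point | ∃ x ∈ S, P.xRep = ![x, 1]} =
      Point.xRep ⁻¹' ((fun x => ![x, 1]) '' S) := by
    ext P
    simp only [Set.mem_ofPred_eq, Set.mem_preimage, Set.mem_image]
    constructor
    · rintro ⟨x, hx, h⟩; exact ⟨x, hx, h.symm⟩
    · rintro ⟨x, hx, h⟩; exact ⟨x, hx, h.symm⟩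
  rw [this]
  refine Set.Finite.preimage' (hS.image _) fun b _ => ?_
  by_cases hb : ∃ P : W.toAffine.Point, P.xRep = b
  · obtain ⟨P, rfl⟩ := hb
    refine Set.Finite.subset (Set.toFinite {P, -P}) fun Q hQ => ?_
    exact xRep_eq_xRep_iff.mp hQ
  · refine Set.Finite.subset Set.finite_empty fun Q hQ => ?_
    exact (hb ⟨Q, hQ⟩).elim

lemma psi_ne_zero {F : Type*} [Field F] (W : WeierstrassCurve F) [W.IsElliptic] :
    (C 4 * X ^ 3 + C W.b₂ * X ^ 2 + C (2 * W.b₄) * X + C W.b₆ : F[X]) ≠ 0 := by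
  intro h
  have c3 := congrArg (fun p : F[X] => p.coeff 3) h
  have c2 := congrArg (fun p : F[X] => p.coeff 2) h
  have c1 := congrArg (fun p : F[X] => p.coeff 1) h
  have c0 := congrArg (fun p : F[X] => p.coeff 0) h
  simp [coeff_X, coeff_X_pow, coeff_C] at c3 c2 c1 c0
  apply W.isUnit_Δ.ne_zero
  rw [WeierstrassCurve.Δ]
  have c3' : (4 : F) = 0 := c3
  rcases c1 with c1 | c1
  · linear_combination (-W.b₂ * W.b₈ + 9 * W.b₄ * W.b₆) * c2 - 27 * W.b₆ * c0 -
      4 * W.b₄ ^ 3 * c1
  · linear_combination (-W.b₂ * W.b₈ + 9 * W.b₄ * W.b₆) * c2 - 27 * W.b₆ * c0 -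
      8 * W.b₄ ^ 2 * c1

lemma two_torsion_finite {F : Type*} [Field F] [DecidableEq F] (W : WeierstrassCurve F)
    [W.IsElliptic] : {P : W.toAffine.Point | P + P = 0}.Finite := by
  refine Set.Finite.subset ((Set.finite_singleton (0 : W.toAffine.Point)).union
    (finite_of_finite_x ((C 4 * X ^ 3 + C W.b₂ * X ^ 2 + C (2 * W.b₄) * X +
      C W.b₆ : F[X]).rootSet_finite F))) ?_
  rintro P hP
  rcases P with _ | ⟨x, y, h⟩
  · left; rfl
  · right
    refine ⟨x, ?_, by simp⟩
    rw [mem_rootSet]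
    refine ⟨psi_ne_zero W, ?_⟩
    have hy : y = W.toAffine.negY x y := by
      by_contra hy
      rw [Set.mem_ofPred_eq, add_self_of_Y_ne hy] at hP
      exact some_ne_zero _ hP
    have E := (equation_iff _ _).mp h.1
    rw [negY] at hy
    have hψ : 2 * y + W.a₁ * x + W.a₃ = 0 := by linear_combination hy
    simp only [coe_aeval_eq_eval, eval_add, eval_mul, eval_C, eval_pow, eval_X,
      WeierstrassCurve.b₂, WeierstrassCurve.b₄, WeierstrassCurve.b₆]
    linear_combination (2 * y + W.a₁ * x + W.a₃) * hψ - 4 * E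

theorem isAlgClosed_residueField {K : Type*} [Field K] [IsAlgClosed K] (A : ValuationSubring K) :
    IsAlgClosed (IsLocalRing.ResidueField A) := by
  refine IsAlgClosed.of_exists_root _ fun p hp hirr => ?_
  have hlift : p ∈ Polynomial.lifts (IsLocalRing.residue A) := by
    rw [Polynomial.lifts_iff_coeff_lifts]
    intro n
    obtain ⟨a, ha⟩ := IsLocalRing.residue_surjective (p.coeff n)
    exact ⟨a, ha⟩
  obtain ⟨q, hq, hdeg, hmon⟩ := Polynomial.lifts_and_degree_eq_and_monic hlift hp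
  have hqd : (q.map A.subtype).degree ≠ 0 := by
    rw [degree_map_eq_of_injective Subtype.val_injective, hdeg]
    exact hirr.degree_pos.ne'
  obtain ⟨x, hx⟩ := IsAlgClosed.exists_root (q.map A.subtype) hqd
  have hxA : x ∈ A := by
    have hint : IsIntegral A x := ⟨q, hmon, by rw [IsRoot.def, eval_map] at hx; exact hx⟩
    obtain ⟨y, hy⟩ := (IsIntegrallyClosed.isIntegral_iff (R := A) (K := K)).mp hint
    rw [← hy]; exact y.2
  refine ⟨IsLocalRing.residue A ⟨x, hxA⟩, ?_⟩
  rw [← hq, eval_map, eval₂_hom]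
  have : q.eval ⟨x, hxA⟩ = 0 := by
    apply Subtype.ext
    have h1 : A.subtype (q.eval ⟨x, hxA⟩) = (q.map A.subtype).eval x := by
      rw [eval_map, ← eval₂_hom]; rfl
    have h2 : A.subtype (q.eval ⟨x, hxA⟩) = 0 := by rw [h1]; exact hx
    exact h2
  rw [this, _root_.map_zero]

lemma exists_point_of_x {F : Type*} [Field F] [IsAlgClosed F] (W : WeierstrassCurve F)
    [W.IsElliptic] (x : F) : ∃ (y : F), W.toAffine.Nonsingular x y := by
  obtain ⟨y, hy⟩ := IsAlgClosed.exists_root
    (X ^ 2 + C (W.a₁ * x + W.a₃) * X - C (x ^ 3 + W.a₂ * x ^ 2 + W.a₄ * x + W.a₆) : F[X]) (by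
      have : (X ^ 2 + C (W.a₁ * x + W.a₃) * X - C (x ^ 3 + W.a₂ * x ^ 2 + W.a₄ * x + W.a₆) :
        F[X]).degree = 2 := by compute_degree!
      rw [this]; exact two_ne_zero)
  refine ⟨y, equation_iff_nonsingular.mp ((equation_iff _ _).mpr ?_)⟩
  simp only [IsRoot.def, eval_add, eval_sub, eval_mul, eval_pow, eval_X, eval_C] at hy
  linear_combination hy

variable {K : Type*} [Field K] [IsAlgClosed K] {A : ValuationSubring K}
  {E : WeierstrassCurve K} {E' : WeierstrassCurve (IsLocalRing.ResidueField A)}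
  [DecidableEq K] [DecidableEq (IsLocalRing.ResidueField A)]

theorem GoodRed.redFun_add (h : GoodRed A E E') (P Q : E.toAffine.Point) :
    h.redFun (P + Q) = h.redFun P + h.redFun Q := by
  have := h.isElliptic
  have := h.isElliptic'
  have := isAlgClosed_residueField A
  refine additive_of_generic h.redFun h.redFun_neg (fun P Q => h.redFun_add_generic)
    (fun P Q => h.redFun_add_pm) (fun S hS => ?_) (two_torsion_finite E') P Q
  have hS' : {x | ∃ P ∈ S, P.xRep = ![x, 1]}.Finite := by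
    have h1 : ((fun P : E'.toAffine.Point => P.xRep 0) '' S).Finite := hS.image _
    refine h1.subset ?_
    rintro x ⟨P, hP, hx⟩
    exact ⟨P, hP, by simp [hx]⟩
  have : Infinite (IsLocalRing.ResidueField A) := inferInstance
  obtain ⟨x, hx⟩ := hS'.exists_notMem
  obtain ⟨X, rfl⟩ := IsLocalRing.residue_surjective x
  obtain ⟨y, hy⟩ := exists_point_of_x E (X : K)
  have hyA := h.y_mem hy.1 X.2
  obtain ⟨Y, rfl⟩ : ∃ Y : A, (Y : K) = y := ⟨⟨_, hyA⟩, rfl⟩
  refine ⟨Point.some _ _ hy, fun hR => hx ⟨_, hR, ?_⟩⟩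
  rw [h.redFun_some, xRep_some]

/-- The reduction homomorphism. -/
noncomputable def GoodRed.red (h : GoodRed A E E') : E.toAffine.Point →+ E'.toAffine.Point where
  toFun := h.redFun
  map_zero' := h.redFun_zero
  map_add' := h.redFun_add

lemma GoodRed.red_some (h : GoodRed A E E') {x y : A}
    (hxy : E.toAffine.Nonsingular (x : K) y) :
    h.red (.some _ _ hxy) = .some _ _ (h.nonsing hxy.1) := h.redFun_some hxy

lemma GoodRed.red_some_of_notMem (h : GoodRed A E E') {x y : K} (hx : x ∉ A)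
    (hxy : E.toAffine.Nonsingular (x : K) y) :
    h.red (.some _ _ hxy) = 0 := h.redFun_some_of_notMem hx hxy

lemma GoodRed.red_eq_zero_iff (h : GoodRed A E E') (P : E.toAffine.Point) :
    h.red P = 0 ↔ P = 0 ∨ ∃ (x y : K) (hxy : E.toAffine.Nonsingular x y), P = .some x y hxy ∧
      x ∉ A := by
  constructor
  · intro hP
    rcases P with _ | ⟨x, y, hxy⟩
    · left; rfl
    · right
      refine ⟨x, y, hxy, rfl, fun hx => ?_⟩
      have hy := h.y_mem hxy.1 hx
      lift x to A using hx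
      lift y to A using hy
      rw [h.red_some] at hP
      exact some_ne_zero _ hP
  · rintro (rfl | ⟨x, y, hxy, rfl, hx⟩)
    · exact _root_.map_zero _
    · exact h.red_some_of_notMem hx hxy

end Closed

end Fermat.Agent.EllFrob
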