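import Fermat.Agent.EllFrob.Height
import Fermat.Agent.EllFrob.Reduction
import Mathlib.FieldTheory.IsSepClosed
import Mathlib.FieldTheory.Galois.Infinite
import Mathlib.FieldTheory.RatFunc.AsPolynomial

/-!
# The generic point of an elliptic curve
-/

set_option autoImplicit false
set_option linter.unusedSectionVars false

namespace Fermat.Agent.EllFrob

open WeierstrassCurve WeierstrassCurve.Affine WeierstrassCurve.Affine.Point Polynomial

section

variable {k : Type*} [Field k] {Ω : Type*} [Field Ω] [Algebra k Ω] [Algebra (RatFunc k) Ω]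
  [IsScalarTower k (RatFunc k) Ω]

variable (k Ω) in
/-- the generic x-coordinate -/
noncomputable def tt : Ω := algebraMap (RatFunc k) Ω RatFunc.X

lemma transcendental_tt : Transcendental k (tt k Ω) := by
  rw [tt, transcendental_algebraMap_iff (algebraMap (RatFunc k) Ω).injective]
  exact RatFunc.transcendental_X

lemma algebraMap_ratFunc (r : RatFunc k) :
    algebraMap (RatFunc k) Ω r = aeval (tt k Ω) r.num / aeval (tt k Ω) r.denom := by
  conv_lhs => rw [← RatFunc.num_div_denom r, map_div₀]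
  have : ∀ p : k[X], algebraMap (RatFunc k) Ω (algebraMap k[X] (RatFunc k) p) =
      aeval (tt k Ω) p := by
    intro p
    rw [tt, aeval_algebraMap_apply]
    congr 1
    rw [← RatFunc.algebraMap_X, aeval_algebraMap_apply, aeval_X_left_apply]
  rw [this, this]

variable (W : WeierstrassCurve k) [W.IsElliptic]

lemma exists_generic_y [IsSepClosed Ω] : ∃ y : Ω, (W⁄Ω).Nonsingular (tt k Ω) y := by
  set t := tt k Ω
  have hW : (W⁄Ω).IsElliptic := inferInstanceAs (W.map (algebraMap k Ω)).IsElliptic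
  set E := W⁄Ω with hE
  set f : Ω[X] := X ^ 2 + C (E.a₁ * t + E.a₃) * X - C (t ^ 3 + E.a₂ * t ^ 2 + E.a₄ * t + E.a₆)
    with hf
  have hdisc : (E.a₁ * t + E.a₃) ^ 2 + 4 * (t ^ 3 + E.a₂ * t ^ 2 + E.a₄ * t + E.a₆) ≠ 0 := by
    have h1 := psi_ne_zero W
    have h2 : aeval t (C 4 * X ^ 3 + C W.b₂ * X ^ 2 + C (2 * W.b₄) * X + C W.b₆ : k[X]) ≠ 0 := by
      intro h0
      exact h1 (transcendental_iff.mp (transcendental_tt (k := k) (Ω := Ω)) _ h0)
    intro h0
    apply h2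
    simp only [map_add, map_mul, map_pow, aeval_C, aeval_X, map_ofNat, WeierstrassCurve.b₂,
      WeierstrassCurve.b₄, WeierstrassCurve.b₆]
    have e1 : E.a₁ = algebraMap k Ω W.a₁ := rfl
    have e2 : E.a₂ = algebraMap k Ω W.a₂ := rfl
    have e3 : E.a₃ = algebraMap k Ω W.a₃ := rfl
    have e4 : E.a₄ = algebraMap k Ω W.a₄ := rfl
    have e6 : E.a₆ = algebraMap k Ω W.a₆ := rfl
    rw [e1, e2, e3, e4, e6] at h0
    linear_combination h0
  have hdeg : f.degree = 2 := by rw [hf]; compute_degree!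
  have hsep : f.Separable := by
    refine ⟨C (-4 / ((E.a₁ * t + E.a₃) ^ 2 + 4 * (t ^ 3 + E.a₂ * t ^ 2 + E.a₄ * t + E.a₆))),
      C (1 / ((E.a₁ * t + E.a₃) ^ 2 + 4 * (t ^ 3 + E.a₂ * t ^ 2 + E.a₄ * t + E.a₆))) *
        (C 2 * X + C (E.a₁ * t + E.a₃)), ?_⟩
    have hd : derivative f = C 2 * X + C (E.a₁ * t + E.a₃) := by
      rw [hf]; simp [derivative_pow]
    rw [hd, hf]
    set D := (E.a₁ * t + E.a₃) ^ 2 + 4 * (t ^ 3 + E.a₂ * t ^ 2 + E.a₄ * t + E.a₆) with hD
    have h1 : (C (1 / D) * C D : Ω[X]) = 1 := by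
      rw [← C_mul, one_div, inv_mul_cancel₀ hdisc, C_1]
    have h2 : (C (-4 / D) : Ω[X]) = - C (1 / D) * C 4 := by
      rw [← C_neg, ← C_mul]; congr 1; ring
    rw [h2]
    have h3 : (C D : Ω[X]) = C (E.a₁ * t + E.a₃) ^ 2 +
        C 4 * C (t ^ 3 + E.a₂ * t ^ 2 + E.a₄ * t + E.a₆) := by
      rw [hD]; simp only [C_add, C_mul, C_pow]
    have h4 : (C 4 : Ω[X]) = C 2 * C 2 := by rw [← C_mul]; norm_num
    rw [h4] at h3 ⊢
    have h22 : (C 2 : Ω[X]) = 2 := map_ofNat C 2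
    rw [h22] at h3 ⊢
    linear_combination h1 - C (1 / D) * h3
  obtain ⟨y, hy⟩ := IsSepClosed.exists_root f (by rw [hdeg]; exact two_ne_zero) hsep
  refine ⟨y, equation_iff_nonsingular.mp ((equation_iff _ _).mpr ?_)⟩
  simp only [hf, IsRoot.def, eval_add, eval_sub, eval_mul, eval_pow, eval_X, eval_C] at hy
  linear_combination hy

variable {W} [DecidableEq Ω]

lemma hasHt_zero (t : Ω) : HasHt (W := W) t (0 : (W⁄Ω).Point) 0 := by
  refine ⟨1, 0, ⟨isCoprime_one_left, 1, one_ne_zero, ?_, ?_⟩, ?_⟩ <;> simp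

lemma hasHt_t {y : Ω} (h : (W⁄Ω).Nonsingular (tt k Ω) y) :
    HasHt (W := W) (tt k Ω) (Point.some _ _ h) 1 := by
  refine ⟨X, 1, ⟨isCoprime_one_right, 1, one_ne_zero, ?_, ?_⟩, ?_⟩ <;> simp

lemma hasHt_of_mem_range {x y : Ω} (h : (W⁄Ω).Nonsingular x y)
    (hx : x ∈ Set.range (algebraMap (RatFunc k) Ω)) :
    ∃ d, HasHt (W := W) (tt k Ω) (Point.some _ _ h) d := by
  obtain ⟨r, rfl⟩ := hx
  have hd : aeval (tt k Ω) r.denom ≠ 0 := by
    intro h0
    exact r.denom_ne_zero (transcendental_iff.mp (transcendental_tt (k := k) (Ω := Ω)) _ h0)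
  refine ⟨_, r.num, r.denom, ⟨RatFunc.isCoprime_num_denom r, aeval (tt k Ω) r.denom, hd, ?_, ?_⟩,
    rfl⟩
  · simp only [xRep_some, Matrix.cons_val_zero]
    rw [algebraMap_ratFunc, mul_div_cancel₀ _ hd]
  · simp

/-- The action of automorphisms on points. -/
noncomputable def act (W : WeierstrassCurve k) (σ : Ω ≃ₐ[RatFunc k] Ω) :
    (W⁄Ω).Point →+ (W⁄Ω).Point :=
  Point.map (W' := W) (σ.toAlgHom.restrictScalars k)

lemma act_generic {y : Ω} (h : (W⁄Ω).Nonsingular (tt k Ω) y) (σ : Ω ≃ₐ[RatFunc k] Ω) :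
    act W σ (Point.some _ _ h) = Point.some _ _ h ∨ act W σ (Point.some _ _ h) =
      -Point.some _ _ h := by
  rw [act, map_some]
  refine X_eq_iff.mp ?_
  show σ (tt k Ω) = tt k Ω
  rw [tt, AlgEquiv.commutes]

/-- points which transform like `P` -/
def Iso (W : WeierstrassCurve k) (P : (W⁄Ω).Point) : AddSubgroup (W⁄Ω).Point where
  carrier := {Q | ∀ σ : Ω ≃ₐ[RatFunc k] Ω, (act W σ P = P → act W σ Q = Q) ∧
    (act W σ P = -P → act W σ Q = -Q)}
  zero_mem' := fun σ => ⟨fun _ => _root_.map_zero _, fun _ => by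
    rw [_root_.map_zero]; exact (_root_.neg_zero).symm⟩
  add_mem' := by
    intro a b ha hb σ
    refine ⟨fun h => ?_, fun h => ?_⟩
    · rw [map_add, (ha σ).1 h, (hb σ).1 h]
    · rw [map_add, (ha σ).2 h, (hb σ).2 h]; abel
  neg_mem' := by
    intro a ha σ
    refine ⟨fun h => ?_, fun h => ?_⟩
    · rw [map_neg, (ha σ).1 h]
    · rw [map_neg, (ha σ).2 h]

lemma self_mem_Iso (P : (W⁄Ω).Point) : P ∈ Iso W P := fun _ => ⟨id, id⟩

lemma map_mem_Iso {P Q : (W⁄Ω).Point} (φ : Ω →ₐ[k] Ω)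
    (hφ : ∀ σ : Ω ≃ₐ[RatFunc k] Ω, ∀ z, σ (φ z) = φ (σ z)) (hQ : Q ∈ Iso W P) :
    Point.map (W' := W) φ Q ∈ Iso W P := by
  intro σ
  have hcomm : ∀ R : (W⁄Ω).Point, act W σ (Point.map (W' := W) φ R) =
      Point.map (W' := W) φ (act W σ R) := by
    intro R
    rcases R with _ | ⟨x, y, h⟩
    · rfl
    · rw [act, map_some, map_some, map_some, map_some]
      exact some_congr (hφ σ x) (hφ σ y) _
  refine ⟨fun h => ?_, fun h => ?_⟩
  · rw [hcomm, (hQ σ).1 h]
  · rw [hcomm, (hQ σ).2 h, map_neg]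

lemma exists_hasHt [IsGalois (RatFunc k) Ω] {y : Ω} (h : (W⁄Ω).Nonsingular (tt k Ω) y)
    {Q : (W⁄Ω).Point} (hQ : Q ∈ Iso W (Point.some _ _ h)) :
    ∃ d, HasHt (W := W) (tt k Ω) Q d := by
  rcases Q with _ | ⟨x', y', h'⟩
  · exact ⟨0, hasHt_zero _⟩
  · refine hasHt_of_mem_range h' ?_
    rw [InfiniteGalois.mem_range_algebraMap_iff_fixed]
    intro σ
    have key : act W σ (Point.some x' y' h') = Point.some x' y' h' ∨
        act W σ (Point.some x' y' h') = -Point.some x' y' h' := by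
      rcases act_generic h σ with h1 | h1
      · exact .inl ((hQ σ).1 h1)
      · exact .inr ((hQ σ).2 h1)
    rw [act, map_some] at key
    exact X_eq_iff.mpr key

end

section Theta

variable {k : Type*} [Field k] {Ω : Type*} [Field Ω] [Algebra k Ω] [Algebra (RatFunc k) Ω]
  [IsScalarTower k (RatFunc k) Ω] [Algebra.IsSeparable (RatFunc k) Ω]

lemma exists_theta {Ω' : Type*} [Field Ω'] [Algebra k Ω'] [IsSepClosed Ω'] {u : Ω'}
    (hu : Transcendental k u) : ∃ θ : Ω →ₐ[k] Ω', θ (tt k Ω) = u := by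
  let f : RatFunc k →ₐ[k] Ω' := RatFunc.liftAlgHom (aeval u) (by
    intro p hp
    rw [Submonoid.mem_comap]
    apply mem_nonZeroDivisors_of_ne_zero
    intro h0
    exact nonZeroDivisors.ne_zero hp (transcendental_iff.mp hu _ h0))
  obtain ⟨θ, hθ⟩ := IsSepClosed.surjective_domRestrict_of_isSeparable (K := k) (M := Ω')
    (RatFunc k) (E := Ω) f
  refine ⟨θ, ?_⟩
  have h1 : θ (tt k Ω) = f RatFunc.X := by
    rw [← hθ]; rfl
  rw [h1]
  have h2 : (RatFunc.X : RatFunc k) = algebraMap k[X] (RatFunc k) X := RatFunc.algebraMap_X.symm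
  rw [h2]
  have := RatFunc.liftAlgHom_apply_div' (aeval u : k[X] →ₐ[k] Ω') (by
    intro p hp
    rw [Submonoid.mem_comap]
    apply mem_nonZeroDivisors_of_ne_zero
    intro h0
    exact nonZeroDivisors.ne_zero hp (transcendental_iff.mp hu _ h0)) X 1
  simpa using this

variable [DecidableEq Ω] {W : WeierstrassCurve k}

/-- Any point with transcendental x-coordinate is a specialization of the generic point. -/
lemma exists_theta_point {y : Ω} (h : (W⁄Ω).Nonsingular (tt k Ω) y) {Ω' : Type*} [Field Ω']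
    [Algebra k Ω'] [IsSepClosed Ω'] [DecidableEq Ω'] {x' y' : Ω'} (h' : (W⁄Ω').Nonsingular x' y')
    (hx : Transcendental k x') : ∃ θ : Ω →ₐ[k] Ω', θ (tt k Ω) = x' ∧
      (Point.map (W' := W) θ (Point.some _ _ h) = Point.some _ _ h' ∨
      Point.map (W' := W) θ (Point.some _ _ h) = -Point.some _ _ h') := by
  obtain ⟨θ, hθ⟩ := exists_theta (Ω := Ω) hx
  refine ⟨θ, hθ, ?_⟩
  rw [map_some]
  exact X_eq_iff.mp hθ

end Theta

end Fermat.Agent.EllFrob
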