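import Fermat.Agent.EllFrob.AddSub
import Mathlib.RingTheory.Algebraic.Basic

/-!
# Heights of points with coordinates in a rational function field
-/

set_option autoImplicit false

namespace Fermat.Agent.EllFrob

open WeierstrassCurve WeierstrassCurve.Affine WeierstrassCurve.Affine.Point Polynomial

section Vec

variable {k : Type*} [Field k] {n : ℕ}

/-- degree of a vector of polynomials -/
noncomputable def pdeg (v : Fin n → k[X]) : ℕ := Finset.univ.sup fun i => (v i).natDegree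

/-- primitive vectors -/
def Prim (v : Fin n → k[X]) : Prop := Ideal.span (Set.range v) = ⊤

lemma natDegree_le_pdeg (v : Fin n → k[X]) (i : Fin n) : (v i).natDegree ≤ pdeg v :=
  Finset.le_sup (f := fun i => (v i).natDegree) (Finset.mem_univ i)

lemma pdeg_eq {v : Fin n → k[X]} {D : ℕ} (h : ∀ i, (v i).natDegree ≤ D)
    (i : Fin n) (hi : (v i).coeff D ≠ 0) : pdeg v = D :=
  le_antisymm (Finset.sup_le fun i _ => h i)
    ((le_natDegree_of_ne_zero hi).trans (natDegree_le_pdeg v i))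

lemma exists_coeff_pdeg {v : Fin n → k[X]} (hv : v ≠ 0) : ∃ i, (v i).coeff (pdeg v) ≠ 0 := by
  have hn : (Finset.univ : Finset (Fin n)).Nonempty := by
    by_contra h
    apply hv
    ext1 i
    exact absurd ⟨i, Finset.mem_univ i⟩ h
  obtain ⟨i, -, hi⟩ := Finset.exists_mem_eq_sup _ hn fun i => (v i).natDegree
  by_cases h0 : pdeg v = 0
  · obtain ⟨j, hj⟩ := Function.ne_iff.mp hv
    refine ⟨j, ?_⟩
    rw [h0]
    have := natDegree_le_pdeg v j
    rw [h0, Nat.le_zero] at this
    intro h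
    apply hj
    rw [eq_C_of_natDegree_eq_zero this, h]; simp
  · refine ⟨i, ?_⟩
    have e : pdeg v = (v i).natDegree := hi
    rw [e, coeff_natDegree, Ne, leadingCoeff_eq_zero]
    intro h
    rw [h, natDegree_zero] at e
    exact h0 e

lemma Prim.ne_zero {v : Fin n → k[X]} (h : Prim v) : v ≠ 0 := by
  rintro rfl
  have : Ideal.span (Set.range (0 : Fin n → k[X])) = ⊥ := by
    rw [Ideal.span_eq_bot]
    rintro _ ⟨i, rfl⟩
    rfl
  rw [Prim, this] at h
  exact absurd h bot_ne_top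

lemma Prim.exists_sum {v : Fin n → k[X]} (h : Prim v) : ∃ a : Fin n → k[X], ∑ i, a i * v i = 1 := by
  have : (1 : k[X]) ∈ Ideal.span (Set.range v) := by rw [h]; trivial
  rw [Ideal.mem_span_range_iff_exists_fun] at this
  exact this

lemma Prim.exists_eq_smul {v w : Fin n → k[X]} (h : Prim v)
    (hvw : ∀ i j, v i * w j = v j * w i) : ∃ c : k[X], w = c • v := by
  obtain ⟨a, ha⟩ := h.exists_sum
  refine ⟨∑ i, a i * w i, ?_⟩
  ext1 j
  rw [Pi.smul_apply, smul_eq_mul, Finset.sum_mul]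
  calc w j = (∑ i, a i * v i) * w j := by rw [ha, one_mul]
    _ = ∑ i, a i * w i * v j := by
      rw [Finset.sum_mul]
      refine Finset.sum_congr rfl fun i _ => ?_
      rw [mul_assoc, hvw i j]; ring

lemma pdeg_eq_of_proportional {v w : Fin n → k[X]} (h : Prim v) (h' : Prim w)
    (hvw : ∀ i j, v i * w j = v j * w i) : pdeg v = pdeg w := by
  obtain ⟨c, hc⟩ := h.exists_eq_smul hvw
  obtain ⟨d, hd⟩ := h'.exists_eq_smul (w := v) fun i j =>
    (mul_comm _ _).trans ((hvw j i).trans (mul_comm _ _))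
  have hcd : c * d = 1 := by
    obtain ⟨i, hi⟩ := Function.ne_iff.mp h.ne_zero
    have h1 : v i = d * (c * v i) := by
      conv_lhs => rw [hd, hc]
      simp
    have h2 : v i * (c * d - 1) = 0 := by linear_combination -h1
    rcases mul_eq_zero.mp h2 with h3 | h3
    · exact absurd h3 hi
    · exact sub_eq_zero.mp h3
  have hu : IsUnit c := IsUnit.of_mul_eq_one d hcd
  obtain ⟨r, hr, rfl⟩ := Polynomial.isUnit_iff.mp hu
  rw [hc]
  unfold pdeg
  congr 1
  ext1 i
  rw [Pi.smul_apply, smul_eq_mul, natDegree_C_mul hr.ne_zero]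

lemma coeff_two_mul {f g : k[X]} {d : ℕ} (hf : f.natDegree ≤ d) (hg : g.natDegree ≤ d) :
    (f * g).coeff (2 * d) = f.coeff d * g.coeff d := by
  rw [two_mul, coeff_mul_add_eq_of_natDegree_le hf hg]

lemma Prim.G {W : WeierstrassCurve k} [W.IsElliptic] {v : Fin 3 → k[X]} (h : Prim v) :
    Prim (EllFrob.G (W.map C) v) := by
  have h1 : Ideal.span ((fun x => x ^ 4) '' Set.range v) ≤
      Ideal.span (Set.range (EllFrob.G (W.map C) v)) := by
    rw [Ideal.span_le]
    rintro _ ⟨_, ⟨i, rfl⟩, rfl⟩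
    exact G_span _ _ i
  rw [Ideal.span_pow_eq_top _ h 4] at h1
  exact top_le_iff.mp h1

private lemma natDegree_mul3 {c : k} {f g : k[X]} {d : ℕ} (hf : f.natDegree ≤ d)
    (hg : g.natDegree ≤ d) : (C c * f * g).natDegree ≤ 2 * d := by
  rw [mul_assoc]
  refine (natDegree_C_mul_le _ _).trans (natDegree_mul_le.trans ?_)
  omega

private lemma coeff_mul3 {c : k} {f g : k[X]} {d : ℕ} (hf : f.natDegree ≤ d)
    (hg : g.natDegree ≤ d) : (C c * f * g).coeff (2 * d) = c * f.coeff d * g.coeff d := by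
  rw [mul_assoc, coeff_C_mul, coeff_two_mul hf hg, mul_assoc]

private lemma natDegree_mul2 {f g : k[X]} {d : ℕ} (hf : f.natDegree ≤ d)
    (hg : g.natDegree ≤ d) : (f * g).natDegree ≤ 2 * d := by
  refine natDegree_mul_le.trans ?_
  omega

private lemma nsub {f g : k[X]} {d : ℕ} (hf : f.natDegree ≤ d) (hg : g.natDegree ≤ d) :
    (f - g).natDegree ≤ d := (natDegree_sub_le_of_le hf hg).trans (max_self d).le

private lemma nadd {f g : k[X]} {d : ℕ} (hf : f.natDegree ≤ d) (hg : g.natDegree ≤ d) :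
    (f + g).natDegree ≤ d := (natDegree_add_le_of_le hf hg).trans (max_self d).le

lemma coeff_G (W : WeierstrassCurve k) {v : Fin 3 → k[X]} {d : ℕ} (hd : ∀ i, (v i).natDegree ≤ d)
    (i : Fin 3) : (EllFrob.G (W.map C) v i).coeff (2 * d) =
      EllFrob.G W (fun i => (v i).coeff d) i ∧ (EllFrob.G (W.map C) v i).natDegree ≤ 2 * d := by
  have h2 : (2 : k[X]) = C 2 := by simp [map_ofNat]
  have h4 : (4 : k[X]) = C 4 := by simp [map_ofNat]
  have a := hd 0
  have b := hd 1
  have c := hd 2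
  fin_cases i
  · simp only [EllFrob.G, Fin.zero_eta, Matrix.cons_val_zero, map_b₄, map_b₆, map_b₈, sq, coeff_sub,
      ← mul_assoc]
    rw [coeff_two_mul a a, coeff_mul3 a c, coeff_mul3 b c, coeff_mul3 c c]
    exact ⟨rfl, nsub (nsub (nsub
      (natDegree_mul2 a a) (natDegree_mul3 a c)) (natDegree_mul3 b c)) (natDegree_mul3 c c)⟩
  · simp only [EllFrob.G, Fin.mk_one, Matrix.cons_val_one, Matrix.cons_val_zero, map_b₂, map_b₄,
      map_b₆, sq, coeff_add, ← mul_assoc, h2]
    rw [coeff_mul3 b a, coeff_mul3 a c, coeff_mul3 b c, coeff_mul3 c c]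
    exact ⟨rfl, nadd (nadd (nadd
      (natDegree_mul3 b a) (natDegree_mul3 a c)) (natDegree_mul3 b c)) (natDegree_mul3 c c)⟩
  · simp only [EllFrob.G, Fin.reduceFinMk, Matrix.cons_val, sq, coeff_sub,
      ← mul_assoc, h4]
    rw [coeff_mul3 a c, coeff_two_mul b b]
    exact ⟨rfl, nsub (natDegree_mul2 b b) (natDegree_mul3 a c)⟩

lemma pdeg_G {W : WeierstrassCurve k} [W.IsElliptic] {v : Fin 3 → k[X]} (hv : v ≠ 0) :
    pdeg (EllFrob.G (W.map C) v) = 2 * pdeg v := by
  have htop : (fun i => (v i).coeff (pdeg v)) ≠ 0 := by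
    obtain ⟨i, hi⟩ := exists_coeff_pdeg hv
    exact Function.ne_iff.mpr ⟨i, hi⟩
  obtain ⟨i, hi⟩ := Function.ne_iff.mp (G_ne_zero W htop)
  refine pdeg_eq (fun j => (coeff_G W (natDegree_le_pdeg v) j).2) i ?_
  rw [(coeff_G W (natDegree_le_pdeg v) i).1]
  exact hi

/-- symmetric square -/
def Sy {R : Type*} [CommRing R] (p q p' q' : R) : Fin 3 → R := ![p * p', p * q' + q * p', q * q']

lemma Sy_ne_zero {R : Type*} [CommRing R] [IsDomain R] {p q p' q' : R} (h : ¬ (p = 0 ∧ q = 0))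
    (h' : ¬ (p' = 0 ∧ q' = 0)) : Sy p q p' q' ≠ 0 := by
  intro h0
  have e0 := congrFun h0 0
  have e1 := congrFun h0 1
  have e2 := congrFun h0 2
  simp only [Sy, Matrix.cons_val_zero, Matrix.cons_val_one, Matrix.cons_val, Pi.zero_apply,
    mul_eq_zero] at e0 e1 e2
  rcases e0 with rfl | rfl
  · rcases e2 with rfl | rfl
    · exact h ⟨rfl, rfl⟩
    · simp only [mul_zero, zero_add, mul_eq_zero] at e1
      rcases e1 with rfl | rfl
      · exact h ⟨rfl, rfl⟩
      · exact h' ⟨rfl, rfl⟩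
  · rcases e2 with rfl | rfl
    · simp only [mul_zero, zero_mul, add_zero, mul_eq_zero] at e1
      rcases e1 with rfl | rfl
      · exact h ⟨rfl, rfl⟩
      · exact h' ⟨rfl, rfl⟩
    · exact h' ⟨rfl, rfl⟩

lemma Prim.Sy {p q p' q' : k[X]} (h : IsCoprime p q) (h' : IsCoprime p' q') :
    Prim (EllFrob.Sy p q p' q') := by
  by_contra hne
  obtain ⟨M, hM, hle⟩ := Ideal.exists_le_maximal _ hne
  have e : ∀ i, Ideal.Quotient.mk M (EllFrob.Sy p q p' q' i) = 0 := fun i =>
    Ideal.Quotient.eq_zero_iff_mem.mpr (hle (Ideal.subset_span ⟨i, rfl⟩))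
  let _ := Ideal.Quotient.field M
  refine Sy_ne_zero (p := Ideal.Quotient.mk M p) (q := Ideal.Quotient.mk M q)
    (p' := Ideal.Quotient.mk M p') (q' := Ideal.Quotient.mk M q') ?_ ?_ ?_
  · rintro ⟨h1, h2⟩
    obtain ⟨a, b, hab⟩ := h
    have := congrArg (Ideal.Quotient.mk M) hab
    rw [map_add, map_mul, map_mul, h1, h2, mul_zero, mul_zero, add_zero, map_one] at this
    exact zero_ne_one this
  · rintro ⟨h1, h2⟩
    obtain ⟨a, b, hab⟩ := h'
    have := congrArg (Ideal.Quotient.mk M) hab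
    rw [map_add, map_mul, map_mul, h1, h2, mul_zero, mul_zero, add_zero, map_one] at this
    exact zero_ne_one this
  · ext i
    have := e i
    fin_cases i <;> simpa [EllFrob.Sy] using this

lemma not_both_zero {p q : k[X]} (h : IsCoprime p q) : ¬ (p = 0 ∧ q = 0) := by
  rintro ⟨rfl, rfl⟩
  exact not_isCoprime_zero_zero h

lemma top_pair {p q : k[X]} (h : IsCoprime p q) :
    ¬ (p.coeff (max p.natDegree q.natDegree) = 0 ∧ q.coeff (max p.natDegree q.natDegree) = 0) := by
  rintro ⟨h1, h2⟩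
  rcases le_total p.natDegree q.natDegree with hle | hle
  · rw [max_eq_right hle] at h1 h2
    rw [coeff_natDegree, leadingCoeff_eq_zero] at h2
    subst h2
    rw [natDegree_zero, Nat.le_zero] at hle
    rw [natDegree_zero, ← hle, coeff_natDegree, leadingCoeff_eq_zero] at h1
    exact not_both_zero h ⟨h1, rfl⟩
  · rw [max_eq_left hle] at h1 h2
    rw [coeff_natDegree, leadingCoeff_eq_zero] at h1
    subst h1
    rw [natDegree_zero, Nat.le_zero] at hle
    rw [natDegree_zero, ← hle, coeff_natDegree, leadingCoeff_eq_zero] at h2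
    exact not_both_zero h ⟨rfl, h2⟩

lemma pdeg_Sy {p q p' q' : k[X]} (h : IsCoprime p q) (h' : IsCoprime p' q') :
    pdeg (EllFrob.Sy p q p' q') =
      max p.natDegree q.natDegree + max p'.natDegree q'.natDegree := by
  set d := max p.natDegree q.natDegree with hd
  set d' := max p'.natDegree q'.natDegree with hd'
  have a : p.natDegree ≤ d := le_max_left _ _
  have b : q.natDegree ≤ d := le_max_right _ _
  have a' : p'.natDegree ≤ d' := le_max_left _ _
  have b' : q'.natDegree ≤ d' := le_max_right _ _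
  obtain ⟨i, hi⟩ := Function.ne_iff.mp (Sy_ne_zero (top_pair h) (top_pair h'))
  rw [← hd, ← hd'] at hi
  have hc : ∀ i, (EllFrob.Sy p q p' q' i).coeff (d + d') =
      EllFrob.Sy (p.coeff d) (q.coeff d) (p'.coeff d') (q'.coeff d') i := by
    intro i
    fin_cases i
    · simp only [EllFrob.Sy, Fin.zero_eta, Matrix.cons_val_zero]
      rw [coeff_mul_add_eq_of_natDegree_le a a']
    · simp only [EllFrob.Sy, Fin.mk_one, Matrix.cons_val_one, Matrix.cons_val_zero]
      rw [coeff_add, coeff_mul_add_eq_of_natDegree_le a b', coeff_mul_add_eq_of_natDegree_le b a']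
    · simp only [EllFrob.Sy, Fin.reduceFinMk, Matrix.cons_val]
      rw [coeff_mul_add_eq_of_natDegree_le b b']
  refine pdeg_eq (fun j => ?_) i ?_
  · have key : ∀ {f g : k[X]}, f.natDegree ≤ d → g.natDegree ≤ d' → (f * g).natDegree ≤ d + d' :=
      fun hf hg => natDegree_mul_le.trans (add_le_add hf hg)
    fin_cases j
    · exact key a a'
    · exact nadd (key a b') (key b a')
    · exact key b b'
  · rw [hc]
    exact hi

end Vec

section Ht

variable {k Ω : Type*} [Field k] [Field Ω] [Algebra k Ω] [DecidableEq Ω] {W : WeierstrassCurve k}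

/-- `x(P)` is represented by the rational function `p / q` evaluated at `t`. -/
def RepX (t : Ω) (P : (W⁄Ω).Point) (p q : k[X]) : Prop :=
  IsCoprime p q ∧ ∃ c : Ω, c ≠ 0 ∧ aeval t p = c * P.xRep 0 ∧ aeval t q = c * P.xRep 1

/-- The height (degree of the x-coordinate as a rational function) of `P` is `d`. -/
def HasHt (t : Ω) (P : (W⁄Ω).Point) (d : ℕ) : Prop :=
  ∃ p q : k[X], RepX t P p q ∧ max p.natDegree q.natDegree = d

variable {t : Ω} (ht : Transcendental k t)

omit [DecidableEq Ω] in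
include ht in
lemma HasHt.unique {P : (W⁄Ω).Point} {d d' : ℕ} (h : HasHt t P d) (h' : HasHt t P d') :
    d = d' := by
  obtain ⟨p, q, ⟨hc, c, hc0, e1, e2⟩, hd⟩ := h
  obtain ⟨p', q', ⟨hc', c', hc0', e1', e2'⟩, hd'⟩ := h'
  have hpd : ∀ {p q : k[X]}, pdeg ![p, q] = max p.natDegree q.natDegree := by
    intro p q
    simp [pdeg, Fin.univ_succ]
  have hpr : ∀ {p q : k[X]}, IsCoprime p q → Prim ![p, q] := by
    intro p q h
    rw [Prim, Matrix.range_cons, Matrix.range_cons, Matrix.range_empty, Set.union_empty,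
      ← Set.insert_eq]
    rw [Ideal.span_insert]
    exact Ideal.isCoprime_iff_sup_eq.mp ((Ideal.isCoprime_span_singleton_iff _ _).mpr h)
  rw [← hd, ← hd', ← hpd, ← hpd]
  refine pdeg_eq_of_proportional (hpr hc) (hpr hc') ?_
  have key : p * q' = q * p' := by
    apply transcendental_iff_injective.mp ht
    rw [map_mul, map_mul, e1, e2, e1', e2']; ring
  intro i j
  fin_cases i <;> fin_cases j
  · rfl
  · exact key
  · simpa [mul_comm] using key.symm
  · rfl

include ht in
/-- The parallelogram law. -/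
theorem HasHt.parallelogram [W.IsElliptic] {P Q : (W⁄Ω).Point} {d₁ d₂ d₃ d₄ : ℕ}
    (h₁ : HasHt t P d₁) (h₂ : HasHt t Q d₂) (h₃ : HasHt t (P + Q) d₃) (h₄ : HasHt t (P - Q) d₄) :
    d₃ + d₄ = 2 * (d₁ + d₂) := by
  obtain ⟨p₁, q₁, ⟨i₁, c₁, c₁0, e₁, f₁⟩, rfl⟩ := h₁
  obtain ⟨p₂, q₂, ⟨i₂, c₂, c₂0, e₂, f₂⟩, rfl⟩ := h₂
  obtain ⟨p₃, q₃, ⟨i₃, c₃, c₃0, e₃, f₃⟩, rfl⟩ := h₃
  obtain ⟨p₄, q₄, ⟨i₄, c₄, c₄0, e₄, f₄⟩, rfl⟩ := h₄
  have : (W⁄Ω).IsElliptic := inferInstanceAs (W.map (algebraMap k Ω)).IsElliptic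
  obtain ⟨c, hc, hG⟩ := G_sym2x P Q
  have hv : Prim (Sy p₁ q₁ p₂ q₂) := Prim.Sy i₁ i₂
  rw [← pdeg_Sy i₁ i₂, ← pdeg_Sy i₃ i₄, ← pdeg_G (W := W) hv.ne_zero]
  symm
  refine pdeg_eq_of_proportional hv.G (Prim.Sy i₃ i₄) ?_
  -- everything is proportional
  have hW : (W.map (C : k →+* k[X])).map (aeval t : k[X] →ₐ[k] Ω).toRingHom = W⁄Ω := by
    rw [WeierstrassCurve.map_map]
    congr 1
    ext r
    simp
  have s1 : (aeval t : k[X] →ₐ[k] Ω).toRingHom ∘ Sy p₁ q₁ p₂ q₂ = (c₁ * c₂) • sym2x P Q := by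
    ext i
    fin_cases i <;> simp [Sy, sym2x, e₁, e₂, f₁, f₂] <;> ring
  have s2 : (aeval t : k[X] →ₐ[k] Ω).toRingHom ∘ Sy p₃ q₃ p₄ q₄ =
      (c₃ * c₄) • sym2x (P + Q) (P - Q) := by
    ext i
    fin_cases i <;> simp [Sy, sym2x, e₃, e₄, f₃, f₄] <;> ring
  have s3 := G_map (aeval t : k[X] →ₐ[k] Ω).toRingHom (W.map C) (Sy p₁ q₁ p₂ q₂)
  rw [hW, s1, G_smul, hG] at s3
  intro i j
  apply transcendental_iff_injective.mp ht
  rw [map_mul, map_mul]
  have g1 : ∀ i, aeval t (EllFrob.G (W.map C) (Sy p₁ q₁ p₂ q₂) i) =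
      (c₁ * c₂) ^ 2 * (c * sym2x (P + Q) (P - Q) i) := fun i => (congrFun s3 i).symm
  have g2 : ∀ i, aeval t (Sy p₃ q₃ p₄ q₄ i) = c₃ * c₄ * sym2x (P + Q) (P - Q) i :=
    fun i => congrFun s2 i
  rw [g1, g1, g2, g2]
  ring

end Ht

section Comp

variable {k : Type*} [Field k]

/-- homogenization of `p` of degree `d` evaluated at `(N, D)` -/
noncomputable def hom {R : Type*} [CommRing R] [Algebra k R] (d : ℕ) (p : k[X]) (N D : R) : R :=
  ∑ i ∈ Finset.range (d + 1), algebraMap k R (p.coeff i) * (N ^ i * D ^ (d - i))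

lemma hom_eq {F : Type*} [Field F] [Algebra k F] {d : ℕ} {p : k[X]} (hp : p.natDegree ≤ d)
    {N D : F} (hD : D ≠ 0) : hom d p N D = D ^ d * aeval (N / D) p := by
  rw [aeval_eq_sum_range' (Nat.lt_succ_of_le hp), hom, Finset.mul_sum]
  refine Finset.sum_congr rfl fun i hi => ?_
  have hi' : i ≤ d := Nat.lt_succ_iff.mp (Finset.mem_range.mp hi)
  rw [Algebra.smul_def, div_pow]
  have : D ^ d = D ^ i * D ^ (d - i) := by rw [← pow_add]; congr 1; omega
  rw [this]
  field_simp

lemma hom_zero {F : Type*} [Field F] [Algebra k F] {d : ℕ} {p : k[X]} {N : F} :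
    hom d p N 0 = algebraMap k F (p.coeff d) * N ^ d := by
  rw [hom, Finset.sum_range_succ, Finset.sum_eq_zero]
  · simp
  · intro i hi
    have : d - i ≠ 0 := by have := Finset.mem_range.mp hi; omega
    rw [zero_pow this, mul_zero, mul_zero]

lemma hom_ne_zero {F : Type*} [Field F] [Algebra k F] {p q : k[X]} (h : IsCoprime p q) {N D : F}
    (hND : ¬ (N = 0 ∧ D = 0)) :
    ¬ (hom (max p.natDegree q.natDegree) p N D = 0 ∧
      hom (max p.natDegree q.natDegree) q N D = 0) := by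
  rintro ⟨h1, h2⟩
  by_cases hD : D = 0
  · subst hD
    have hN : N ≠ 0 := fun h => hND ⟨h, rfl⟩
    rw [hom_zero, mul_eq_zero, or_iff_left (pow_ne_zero _ hN), map_eq_zero] at h1 h2
    exact top_pair h ⟨h1, h2⟩
  · rw [hom_eq (le_max_left _ _) hD, mul_eq_zero, or_iff_right (pow_ne_zero _ hD)] at h1
    rw [hom_eq (le_max_right _ _) hD, mul_eq_zero, or_iff_right (pow_ne_zero _ hD)] at h2
    obtain ⟨a, b, hab⟩ := h
    have := congrArg (aeval (N / D)) hab
    rw [map_add, map_mul, map_mul, h1, h2, mul_zero, mul_zero, add_zero, map_one] at this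
    exact zero_ne_one this

lemma map_hom {R S : Type*} [CommRing R] [CommRing S] [Algebra k R] [Algebra k S] (f : R →ₐ[k] S)
    (d : ℕ) (p : k[X]) (N D : R) : f (hom d p N D) = hom d p (f N) (f D) := by
  simp [hom]

lemma isCoprime_hom {p q N D : k[X]} (h : IsCoprime p q) (h' : IsCoprime N D) :
    IsCoprime (hom (max p.natDegree q.natDegree) p N D)
      (hom (max p.natDegree q.natDegree) q N D) := by
  rw [← Ideal.isCoprime_span_singleton_iff, Ideal.isCoprime_iff_sup_eq]
  by_contra hne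
  obtain ⟨M, hM, hle⟩ := Ideal.exists_le_maximal _ hne
  let _ := Ideal.Quotient.field M
  have e1 : Ideal.Quotient.mkₐ k M (hom (max p.natDegree q.natDegree) p N D) = 0 :=
    Ideal.Quotient.eq_zero_iff_mem.mpr (hle (Ideal.mem_sup_left (Ideal.mem_span_singleton_self _)))
  have e2 : Ideal.Quotient.mkₐ k M (hom (max p.natDegree q.natDegree) q N D) = 0 :=
    Ideal.Quotient.eq_zero_iff_mem.mpr (hle (Ideal.mem_sup_right (Ideal.mem_span_singleton_self _)))
  rw [map_hom] at e1 e2
  refine hom_ne_zero h ?_ ⟨e1, e2⟩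
  rintro ⟨h1, h2⟩
  obtain ⟨a, b, hab⟩ := h'
  have := congrArg (Ideal.Quotient.mkₐ k M) hab
  rw [map_add, map_mul, map_mul, h1, h2, mul_zero, mul_zero, add_zero, map_one] at this
  exact zero_ne_one this

lemma natDegree_hom_le (d : ℕ) (p : k[X]) {N D : k[X]} {e : ℕ} (hN : N.natDegree ≤ e)
    (hD : D.natDegree ≤ e) : (hom d p N D).natDegree ≤ d * e ∧
      (hom d p N D).coeff (d * e) = hom d p (N.coeff e) (D.coeff e) := by
  have key : ∀ i ∈ Finset.range (d + 1), (N ^ i * D ^ (d - i)).natDegree ≤ d * e ∧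
      (N ^ i * D ^ (d - i)).coeff (d * e) = N.coeff e ^ i * D.coeff e ^ (d - i) := by
    intro i hi
    have hi' : i ≤ d := Nat.lt_succ_iff.mp (Finset.mem_range.mp hi)
    have h1 : (N ^ i).natDegree ≤ i * e := natDegree_pow_le_of_le i hN
    have h2 : (D ^ (d - i)).natDegree ≤ (d - i) * e := natDegree_pow_le_of_le (d - i) hD
    have h3 : d * e = i * e + (d - i) * e := by rw [← add_mul]; congr 1; omega
    rw [h3]
    refine ⟨natDegree_mul_le.trans (add_le_add h1 h2), ?_⟩
    rw [coeff_mul_add_eq_of_natDegree_le h1 h2, coeff_pow_of_natDegree_le hN,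
      coeff_pow_of_natDegree_le hD]
  constructor
  · refine natDegree_sum_le_of_forall_le _ _ fun i hi => ?_
    rw [Polynomial.algebraMap_eq]
    exact (natDegree_C_mul_le _ _).trans (key i hi).1
  · rw [hom, finsetSum_coeff, hom]
    refine Finset.sum_congr rfl fun i hi => ?_
    rw [Polynomial.algebraMap_eq, coeff_C_mul, (key i hi).2]
    rfl

lemma natDegree_hom {p q N D : k[X]} (h : IsCoprime p q) (h' : IsCoprime N D) :
    max (hom (max p.natDegree q.natDegree) p N D).natDegree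
      (hom (max p.natDegree q.natDegree) q N D).natDegree =
    max p.natDegree q.natDegree * max N.natDegree D.natDegree := by
  set d := max p.natDegree q.natDegree with hd
  set e := max N.natDegree D.natDegree with he
  obtain ⟨a1, a2⟩ := natDegree_hom_le d p (N := N) (D := D) (le_max_left _ _) (le_max_right _ _)
  obtain ⟨b1, b2⟩ := natDegree_hom_le d q (N := N) (D := D) (le_max_left _ _) (le_max_right _ _)
  rw [← he] at a1 a2 b1 b2
  refine le_antisymm (max_le a1 b1) ?_
  have h3 := hom_ne_zero (F := k) h (top_pair h')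
  rw [← hd, ← he] at h3
  by_contra hlt
  push Not at hlt
  refine h3 ⟨?_, ?_⟩
  · rw [← a2]
    exact coeff_eq_zero_of_natDegree_lt ((le_max_left _ _).trans_lt hlt)
  · rw [← b2]
    exact coeff_eq_zero_of_natDegree_lt ((le_max_right _ _).trans_lt hlt)

variable {Ω Ω' : Type*} [Field Ω] [Algebra k Ω] [Field Ω'] [Algebra k Ω'] [DecidableEq Ω]
  [DecidableEq Ω'] {W : WeierstrassCurve k}

/-- Height of a specialization. -/
theorem HasHt.comp {t : Ω} {t' : Ω'} (_ht' : Transcendental k t') {P : (W⁄Ω).Point} {d : ℕ}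
    (h : HasHt t P d) (θ : Ω →ₐ[k] Ω') {Q : (W⁄Ω').Point} {e : ℕ} (hQ : HasHt t' Q e)
    (hθ : θ t * Q.xRep 1 = Q.xRep 0) (hQ0 : Q ≠ 0) :
    HasHt t' (Point.map (W' := W) θ P) (d * e) := by
  obtain ⟨p, q, ⟨hc, c, hc0, e1, e2⟩, rfl⟩ := h
  obtain ⟨N, D, ⟨hc', c', hc0', e1', e2'⟩, rfl⟩ := hQ
  refine ⟨_, _, ⟨isCoprime_hom hc hc', ?_⟩, natDegree_hom hc hc'⟩
  set δ := max p.natDegree q.natDegree with hδ
  have hx1 : Q.xRep 1 = 1 := by
    rcases Q with _ | ⟨x, y, hxy⟩
    · exact absurd rfl hQ0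
    · rfl
  rw [hx1, mul_one] at hθ e2'
  have hDt : aeval t' D ≠ 0 := by rw [e2']; exact hc0'
  have hND : aeval t' N / aeval t' D = θ t := by
    rw [e1', e2', hθ, mul_div_cancel_left₀ _ hc0']
  refine ⟨aeval t' D ^ δ * θ c, mul_ne_zero (pow_ne_zero _ hDt) ((map_ne_zero θ).mpr hc0), ?_, ?_⟩
  · rw [map_hom, hom_eq (le_max_left _ _) hDt, hND, aeval_algHom_apply, e1, map_mul, mul_assoc]
    rcases P with _ | ⟨x, y, hxy⟩
    · simp [← zero_def, hδ]
    · simp [map_some, hδ]
  · rw [map_hom, hom_eq (le_max_right _ _) hDt, hND, aeval_algHom_apply, e2, map_mul, mul_assoc]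
    rcases P with _ | ⟨x, y, hxy⟩
    · simp [← zero_def, hδ]
    · simp [map_some, hδ]

end Comp

section Quad

variable {M : Type*} [AddCommGroup M] {f : M → ℤ}
  (hf : ∀ x y, f (x + y) + f (x - y) = 2 * (f x + f y))

include hf

lemma quad_zero : f 0 = 0 := by
  have := hf 0 0
  simp only [add_zero, sub_zero] at this
  omega

lemma quad_neg (x : M) : f (-x) = f x := by
  have := hf 0 x
  simp only [zero_add, zero_sub, quad_zero hf] at this
  omega

lemma quad_two (x : M) : f (x + x) = 4 * f x := by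
  have := hf x x
  rw [sub_self, quad_zero hf] at this
  omega

lemma quad_add3 (a b c : M) :
    f (a + b + c) = f (a + b) + f (a + c) + f (b + c) - f a - f b - f c := by
  have h1 := hf (a + b) c
  have h2 := hf (a + c) b
  have h3 := hf (a + b - c) (a + c - b)
  have e1 : a + b - c + (a + c - b) = a + a := by abel
  have e2 : a + b - c - (a + c - b) = (b - c) + (b - c) := by abel
  have e3 : a + c + b = a + b + c := by abel
  rw [e1, e2, quad_two hf, quad_two hf] at h3
  rw [e3] at h2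
  have h4 := hf b c
  omega

/-- The associated bilinear form. -/
def quadB (a : M) : M →+ ℤ where
  toFun x := f (a + x) - f a - f x
  map_zero' := by rw [add_zero, quad_zero hf]; ring
  map_add' x y := by
    rw [← add_assoc, quad_add3 hf]; ring

lemma quadB_apply (a x : M) : quadB hf a x = f (a + x) - f a - f x := rfl

lemma quadB_comm (a x : M) : quadB hf a x = quadB hf x a := by
  rw [quadB_apply, quadB_apply, add_comm]; ring

lemma quad_eq_half (a : M) : 2 * f a = quadB hf a a := by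
  rw [quadB_apply, quad_two hf]; ring

lemma quad_add (a x : M) : f (a + x) = f a + f x + quadB hf a x := by
  rw [quadB_apply]; ring

lemma quad_smul (n : ℤ) (a : M) : f (n • a) = n ^ 2 * f a := by
  have h := quad_eq_half hf (n • a)
  rw [map_zsmul, quadB_comm hf, map_zsmul, ← quad_eq_half hf, smul_eq_mul, smul_eq_mul] at h
  have : 2 * f (n • a) = 2 * (n ^ 2 * f a) := by rw [h]; ring
  omega

/-- The characteristic equation, for a quadratic form. -/
theorem quad_char (T : M →+ M) {ℓ : ℤ} (hT : ∀ x, f (T x) = ℓ * f x) {P : M} (hP : f P = 1)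
    (h2 : f (P - T (T P)) = f (P - T P) * f (P + T P)) {a : ℤ} (ha : a = 1 + ℓ - f (P - T P)) :
    f (T (T P) - a • T P + ℓ • P) = 0 := by
  have hB : ∀ x y, quadB hf (T x) (T y) = ℓ * quadB hf x y := by
    intro x y
    rw [quadB_apply, quadB_apply, ← map_add, hT, hT, hT]; ring
  have h1 : quadB hf P (T P) = a := by
    have := quad_add hf P (-T P)
    rw [← sub_eq_add_neg, quad_neg hf, hT, map_neg, hP] at this
    rw [ha, this]; ring
  have h3 : f (P + T P) = 1 + ℓ + a := by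
    rw [quad_add hf, hT, hP, h1]; ring
  have h4 : quadB hf P (T (T P)) = a ^ 2 - 2 * ℓ := by
    have := quad_add hf P (-T (T P))
    rw [← sub_eq_add_neg, quad_neg hf, hT, hT, map_neg, hP, h2, h3] at this
    have h5 : f (P - T P) = 1 + ℓ - a := by rw [ha]; ring
    rw [h5] at this
    linear_combination this
  have e : T (T P) - a • T P + ℓ • P = T (T P) + ((-a) • T P + ℓ • P) := by
    rw [neg_smul]; abel
  rw [e, quad_add hf, quad_add hf, quad_smul hf, quad_smul hf, hT, hT, hP, map_add, map_zsmul,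
    map_zsmul, map_zsmul, quadB_comm hf ((-a) • T P), map_zsmul, hB, quadB_comm hf (T P) P,
    quadB_comm hf (T (T P)) P, h1, h4]
  simp only [smul_eq_mul]
  ring

/-- The discriminant bound. -/
theorem quad_bound (hpos : ∀ x, 0 ≤ f x) (T : M →+ M) {ℓ : ℤ} (hT : ∀ x, f (T x) = ℓ * f x)
    {P : M} (hP : f P = 1) {a : ℤ} (ha : a = 1 + ℓ - f (P - T P)) : a ^ 2 ≤ 4 * ℓ := by
  have h1 : quadB hf P (T P) = a := by
    have := quad_add hf P (-T P)
    rw [← sub_eq_add_neg, quad_neg hf, hT, map_neg, hP] at this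
    rw [ha, this]; ring
  have := hpos ((-a) • P + (2 : ℤ) • T P)
  rw [quad_add hf, quad_smul hf, quad_smul hf, hT, hP, map_zsmul, quadB_comm hf, map_zsmul,
    quadB_comm hf, h1] at this
  simp only [smul_eq_mul] at this
  nlinarith

end Quad

end Fermat.Agent.EllFrob
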