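import Fermat.Agent.EllFrob.Count
import Fermat.Prelude.Def_FLTPrelim_Modularity
import Mathlib.RingTheory.Valuation.LocalSubring
import Mathlib.FieldTheory.AlgebraicClosure

/-!
# The characteristic equation of Frobenius and the Hasse bound
-/

set_option autoImplicit false
set_option linter.unusedSectionVars false

namespace Fermat.Agent.EllFrob

open WeierstrassCurve WeierstrassCurve.Affine WeierstrassCurve.Affine.Point Polynomial

section

variable {ℓ : ℕ} [Fact ℓ.Prime]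

/-- Frobenius. -/
noncomputable def fr (ℓ : ℕ) [Fact ℓ.Prime] (K : Type*) [Field K] [Algebra (ZMod ℓ) K] :
    K →ₐ[ZMod ℓ] K := FiniteField.frobeniusAlgHom (ZMod ℓ) K

lemma fr_apply {K : Type*} [Field K] [Algebra (ZMod ℓ) K] (z : K) : fr ℓ K z = z ^ ℓ := by
  rw [fr, FiniteField.coe_frobeniusAlgHom, ZMod.card]

lemma fr_comm {K K' : Type*} [Field K] [Algebra (ZMod ℓ) K] [Field K'] [Algebra (ZMod ℓ) K']
    (θ : K →ₐ[ZMod ℓ] K') (z : K) : fr ℓ K' (θ z) = θ (fr ℓ K z) := by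
  rw [fr_apply, fr_apply, map_pow]

variable (W : WeierstrassCurve (ZMod ℓ)) [W.IsElliptic]

/-- Frobenius on points. -/
noncomputable def frP (K : Type*) [Field K] [Algebra (ZMod ℓ) K] [DecidableEq K] :
    (W⁄K).Point →+ (W⁄K).Point := Point.map (W' := W) (fr ℓ K)

variable {W}

lemma frP_map {K K' : Type*} [Field K] [Algebra (ZMod ℓ) K] [Field K'] [Algebra (ZMod ℓ) K']
    [DecidableEq K] [DecidableEq K'] (θ : K →ₐ[ZMod ℓ] K') (P : (W⁄K).Point) :
    frP W K' (Point.map (W' := W) θ P) = Point.map (W' := W) θ (frP W K P) := by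
  rcases P with _ | ⟨x, y, h⟩
  · rfl
  · rw [frP, frP, map_some, map_some, map_some, map_some]
    exact some_congr (fr_comm θ x) (fr_comm θ y) _

lemma frP_some {K : Type*} [Field K] [Algebra (ZMod ℓ) K] [DecidableEq K] {x y : K}
    (h : (W⁄K).Nonsingular x y) (h' : (W⁄K).Nonsingular (x ^ ℓ) (y ^ ℓ)) :
    frP W K (Point.some x y h) = Point.some (x ^ ℓ) (y ^ ℓ) h' := by
  rw [frP, map_some]
  exact some_congr (fr_apply x) (fr_apply y) _

variable {Ω : Type*} [Field Ω] [Algebra (ZMod ℓ) Ω] [DecidableEq Ω]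

lemma HasHt.frP {t : Ω} {P : (W⁄Ω).Point} {d : ℕ} (h : HasHt t P d) :
    HasHt t (frP W Ω P) (ℓ * d) := by
  obtain ⟨p, q, ⟨hc, c, hc0, e1, e2⟩, rfl⟩ := h
  refine ⟨p ^ ℓ, q ^ ℓ, ⟨hc.pow, c ^ ℓ, pow_ne_zero _ hc0, ?_, ?_⟩, ?_⟩
  · rw [map_pow, e1, mul_pow]
    congr 1
    rcases P with _ | ⟨x, y, h⟩
    · simp [← zero_def]
    · rw [EllFrob.frP, map_some]
      simp [fr_apply]
  · rw [map_pow, e2, mul_pow]
    congr 1
    rcases P with _ | ⟨x, y, h⟩
    · simp [← zero_def, (Fact.out : ℓ.Prime).ne_zero]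
    · rw [EllFrob.frP, map_some]
      simp
  · rw [natDegree_pow, natDegree_pow, Nat.mul_max_mul_left]

lemma pow_ne_self {t : Ω} (ht : Transcendental (ZMod ℓ) t) : t ≠ t ^ ℓ := by
  intro h
  have h1 : aeval t (X ^ ℓ - X : (ZMod ℓ)[X]) = 0 := by
    rw [map_sub, map_pow, aeval_X, ← h, sub_self]
  exact FiniteField.X_pow_card_sub_X_ne_zero (ZMod ℓ) (Fact.out : ℓ.Prime).one_lt
    (transcendental_iff.mp ht _ h1)

lemma coeff_pow (a : ZMod ℓ) : (algebraMap (ZMod ℓ) Ω a) ^ ℓ = algebraMap (ZMod ℓ) Ω a := by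
  rw [← map_pow, ZMod.pow_card]

lemma charP_Ω : CharP Ω ℓ := charP_of_injective_algebraMap (algebraMap (ZMod ℓ) Ω).injective ℓ

/-- The x-coordinate of `P - φ P`. -/
lemma x_sub_eq {t y : Ω} (ht : Transcendental (ZMod ℓ) t) (h : (W⁄Ω).Nonsingular t y) :
    ∃ (x' y' : Ω) (h' : (W⁄Ω).Nonsingular x' y'),
      Point.some t y h - frP W Ω (Point.some t y h) = Point.some x' y' h' ∧
      x' * (t - t ^ ℓ) ^ 2 = (y + y ^ ℓ + algebraMap _ Ω W.a₁ * t ^ ℓ + algebraMap _ Ω W.a₃) *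
        (y + y ^ ℓ + algebraMap _ Ω W.a₁ * t + algebraMap _ Ω W.a₃) -
        (algebraMap _ Ω W.a₂ + t + t ^ ℓ) * (t - t ^ ℓ) ^ 2 := by
  have hne := pow_ne_self ht
  have h2 : (W⁄Ω).Nonsingular (t ^ ℓ) (y ^ ℓ) := by
    have := (WeierstrassCurve.Affine.baseChange_nonsingular W (f := fr ℓ Ω)
      (fr ℓ Ω).injective t y).mpr h
    rwa [fr_apply, fr_apply] at this
  refine ⟨_, _, _, by rw [frP_some h h2, sub_eq_add_neg, neg_some, add_of_X_ne hne], ?_⟩
  rw [addX, slope_of_X_ne hne, negY]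
  have hne' : t - t ^ ℓ ≠ 0 := sub_ne_zero.mpr hne
  have e1 : (W⁄Ω).a₁ = algebraMap _ Ω W.a₁ := rfl
  have e2 : (W⁄Ω).a₂ = algebraMap _ Ω W.a₂ := rfl
  have e3 : (W⁄Ω).a₃ = algebraMap _ Ω W.a₃ := rfl
  rw [e1, e2, e3]
  set a₁ := algebraMap _ Ω W.a₁
  set a₂ := algebraMap _ Ω W.a₂
  set a₃ := algebraMap _ Ω W.a₃
  field_simp
  ring

/-- The degree of `1 - φ` is the number of rational points. -/
theorem hasHt_one_sub {t y : Ω} (ht : Transcendental (ZMod ℓ) t) (h : (W⁄Ω).Nonsingular t y) :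
    HasHt (W := W) t (Point.some t y h - frP W Ω (Point.some t y h))
      (Nat.card W.toAffine.Point) := by
  have hp : ℓ.Prime := Fact.out
  obtain ⟨x', y', h', hP, hx'⟩ := x_sub_eq ht h
  rw [hP]
  have hE := (equation_iff _ _).mp h.1
  have e1 : (W⁄Ω).a₁ = algebraMap _ Ω W.a₁ := rfl
  have e2 : (W⁄Ω).a₂ = algebraMap _ Ω W.a₂ := rfl
  have e3 : (W⁄Ω).a₃ = algebraMap _ Ω W.a₃ := rfl
  have e4 : (W⁄Ω).a₄ = algebraMap _ Ω W.a₄ := rfl
  have e6 : (W⁄Ω).a₆ = algebraMap _ Ω W.a₆ := rfl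
  rw [e1, e2, e3, e4, e6] at hE
  have hchar : CharP Ω ℓ := charP_Ω
  set a₁ := algebraMap _ Ω W.a₁ with ha₁
  set a₂ := algebraMap _ Ω W.a₂ with ha₂
  set a₃ := algebraMap _ Ω W.a₃ with ha₃
  set a₄ := algebraMap _ Ω W.a₄ with ha₄
  set a₆ := algebraMap _ Ω W.a₆ with ha₆
  -- reduction to a statement about N
  have key : ∀ (N : (ZMod ℓ)[X]) (c : ZMod ℓ), c ≠ 0 → N.natDegree = 2 * ℓ + 1 →
      (∀ a, (nx W a = 2 ∧ N.eval a ≠ 0) ∨
      (nx W a = 1 ∧ N.eval a = 0 ∧ (derivative N).eval a ≠ 0) ∨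
      (nx W a = 0 ∧ N.eval a = 0 ∧ (derivative N).eval a = 0)) →
      aeval t N = algebraMap _ Ω c * (x' * (t - t ^ ℓ) ^ 2) →
      HasHt (W := W) t (Point.some x' y' h') (Nat.card W.toAffine.Point) := by
    intro N c hc hdeg hL hN
    obtain ⟨p, q, G, hcop, hG, hpG, hqG, hmax⟩ := exists_pair (N := N) (n := nx W)
      (by rw [ZMod.card]; exact hdeg) hL
    rw [← card_point] at hmax
    rw [ZMod.card] at hqG
    have hG' : aeval t G ≠ 0 := fun h0 => hG (transcendental_iff.mp ht _ h0)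
    have hne := pow_ne_self ht
    have h1 : aeval t q * aeval t G = (t - t ^ ℓ) ^ 2 := by
      rw [← map_mul, hqG, map_pow, map_sub, map_pow, aeval_X]; ring
    have hq0 : aeval t q ≠ 0 := by
      intro h0
      rw [h0, zero_mul] at h1
      exact pow_ne_zero 2 (sub_ne_zero.mpr hne) h1.symm
    have h2 : aeval t p = algebraMap _ Ω c * (x' * aeval t q) := by
      apply mul_right_cancel₀ hG'
      rw [← map_mul, hpG, hN, ← h1]; ring
    have hc' : algebraMap _ Ω c ≠ 0 := (_root_.map_ne_zero _).mpr hc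
    refine ⟨C c⁻¹ * p, q, ⟨?_, aeval t q, hq0, ?_, ?_⟩, ?_⟩
    · exact (isCoprime_mul_unit_left_left (isUnit_C.mpr (isUnit_iff_ne_zero.mpr
        (inv_ne_zero hc))) p q).mpr hcop
    · rw [map_mul, aeval_C, h2, xRep_some, Matrix.cons_val_zero, ← mul_assoc, ← map_mul,
        inv_mul_cancel₀ hc, map_one, one_mul, mul_comm]
    · rw [xRep_some, Matrix.cons_val_one, Matrix.cons_val_fin_one, mul_one]
    · rw [natDegree_C_mul (inv_ne_zero hc), hmax]
  by_cases hℓ : ℓ = 2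
  · subst hℓ
    refine key (N2 W) 1 one_ne_zero (natDegree_N2 W) (local_two W) ?_
    rw [hx', map_one, one_mul, N2]
    simp only [map_add, map_mul, map_pow, map_sub, aeval_C, aeval_X, ← ha₁, ← ha₂, ← ha₃, ← ha₄,
      ← ha₆]
    have h2 : (2 : Ω) = 0 := by exact_mod_cast CharP.cast_eq_zero Ω 2
    have c1 : a₁ ^ 2 = a₁ := coeff_pow W.a₁
    have c3 : a₃ ^ 2 = a₃ := coeff_pow W.a₃
    set g := t ^ 3 + a₂ * t ^ 2 + a₄ * t + a₆ with hg
    set hh := a₁ * t + a₃ with hhh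
    have hy2 : y ^ 2 = g - hh * y := by rw [hhh]; linear_combination hE
    have hH : a₁ * t ^ 2 + a₃ = hh ^ 2 := by
      rw [hhh]; linear_combination (-t ^ 2) * c1 - c3 - a₁ * t * a₃ * h2
    have hA : y + y ^ 2 + a₁ * t ^ 2 + a₃ = g + hh ^ 2 + (1 - hh) * y := by
      linear_combination hy2 + hH
    have hB : y + y ^ 2 + a₁ * t + a₃ = g + hh + (1 - hh) * y := by
      rw [hy2, hhh]; ring
    rw [hA, hB]
    have hC : (g + hh ^ 2 + (1 - hh) * y) * (g + hh + (1 - hh) * y) =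
        g + g ^ 2 + g * hh + hh ^ 3 + (a₂ + t + t ^ 2) * 0 := by
      linear_combination (1 - hh) ^ 2 * hy2 + ((1 - hh) * y * g + (1 - hh) * y * hh ^ 2 -
        g * hh + g * hh ^ 2 ) * h2
    rw [hC]
    linear_combination ((a₂ + t + t ^ 2) * (t ^ 2 - t) ^ 2) * h2
  · have h2 := two_ne_zero' (ℓ := ℓ) hℓ
    have h4 : (4 : ZMod ℓ) ≠ 0 := by
      have : (4 : ZMod ℓ) = 2 * 2 := by norm_num
      rw [this]; exact mul_ne_zero h2 h2
    refine key (N4 W) 4 h4 (natDegree_N4 W hℓ) (local_odd W hℓ) ?_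
    rw [hx', map_ofNat, N4]
    simp only [map_add, map_mul, map_pow, map_sub, aeval_C, aeval_X, ← ha₁, ← ha₂, map_one,
      map_ofNat]
    have hodd : ℓ = 2 * ((ℓ - 1) / 2) + 1 := by
      have := hp.eq_two_or_odd
      omega
    set m := (ℓ - 1) / 2 with hm
    set δ := aeval t (dl W) with hδ
    set s := 2 * y + a₁ * t + a₃ with hs
    have hs2 : s ^ 2 = δ := by
      rw [hδ, dl]
      simp only [map_add, map_mul, map_pow, aeval_C, aeval_X, map_ofNat, WeierstrassCurve.b₂,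
        WeierstrassCurve.b₄, WeierstrassCurve.b₆, ← ha₁, ← ha₂, ← ha₃, ← ha₄, ← ha₆]
      rw [hs]
      linear_combination 4 * hE
    have hsℓ : s ^ ℓ = 2 * y ^ ℓ + a₁ * t ^ ℓ + a₃ := by
      have : ExpChar Ω ℓ := ExpChar.prime hp
      rw [hs, add_pow_expChar, add_pow_expChar, mul_pow, mul_pow, coeff_pow, coeff_pow]
      congr 3
      have := coeff_pow (Ω := Ω) (2 : ZMod ℓ)
      rwa [map_ofNat] at this
    have hs1 : s ^ ℓ = s * δ ^ m := by
      rw [← hs2, ← pow_mul]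
      conv_lhs => rw [hodd]
      rw [pow_succ]; ring
    have e5 : 2 * (y + y ^ ℓ + a₁ * t ^ ℓ + a₃) = s * (1 + δ ^ m) - a₁ * (t - t ^ ℓ) := by
      rw [mul_add s, mul_one, ← hs1, hsℓ, hs]; ring
    have e6 : 2 * (y + y ^ ℓ + a₁ * t + a₃) = s * (1 + δ ^ m) + a₁ * (t - t ^ ℓ) := by
      rw [mul_add s, mul_one, ← hs1, hsℓ, hs]; ring
    have e7 : 4 * ((y + y ^ ℓ + a₁ * t ^ ℓ + a₃) * (y + y ^ ℓ + a₁ * t + a₃)) =
        δ * (1 + δ ^ m) ^ 2 - a₁ ^ 2 * (t ^ ℓ - t) ^ 2 := by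
      have : 4 * ((y + y ^ ℓ + a₁ * t ^ ℓ + a₃) * (y + y ^ ℓ + a₁ * t + a₃)) =
        (2 * (y + y ^ ℓ + a₁ * t ^ ℓ + a₃)) * (2 * (y + y ^ ℓ + a₁ * t + a₃)) := by ring
      rw [this, e5, e6, ← hs2]; ring
    linear_combination -e7

end

section Infinity

variable {ℓ : ℕ} [Fact ℓ.Prime] {W : WeierstrassCurve (ZMod ℓ)} [W.IsElliptic]

/-- a place at infinity -/
lemma exists_place {L : Type*} [Field L] [Algebra (ZMod ℓ) L] {t : L}
    (ht : Transcendental (ZMod ℓ) t) : ∃ A : ValuationSubring L, t ∉ A := by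
  have ht0 : t ≠ 0 := by
    rintro rfl
    exact ht isAlgebraic_zero
  set R : Subring L := (aeval t⁻¹ : (ZMod ℓ)[X] →ₐ[ZMod ℓ] L).range.toSubring with hR
  have htR : t⁻¹ ∈ R := ⟨X, by simp⟩
  obtain ⟨A, -, hA⟩ := Ideal.image_subset_nonunits_valuationSubring (A := R)
    (Ideal.span {(⟨t⁻¹, htR⟩ : R)}) (by
      intro h
      have h1 : (1 : R) ∈ Ideal.span {(⟨t⁻¹, htR⟩ : R)} := h ▸ Submodule.mem_top
      obtain ⟨a, ha⟩ := Ideal.mem_span_singleton.mp h1
      obtain ⟨f, hf⟩ := a.2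
      have h2 : (1 : L) = t⁻¹ * (a : L) := congrArg Subtype.val ha
      have hf' : aeval t⁻¹ f = (a : L) := hf
      rw [← hf'] at h2
      have ht' : Transcendental (ZMod ℓ) t⁻¹ := by
        rw [Transcendental, IsAlgebraic.inv_iff]; exact ht
      have h3 : aeval t⁻¹ (X * f - 1) = 0 := by
        rw [map_sub, map_mul, aeval_X, map_one, ← h2, sub_self]
      have h4 := transcendental_iff.mp ht' _ h3
      have h5 := congrArg (eval 0) h4
      simp at h5)
  refine ⟨A, fun htA => ?_⟩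
  have h1 : t⁻¹ ∈ A.nonunits := hA ⟨⟨t⁻¹, htR⟩, Ideal.subset_span rfl, rfl⟩
  rw [ValuationSubring.mem_nonunits_iff] at h1
  have h2 := (A.valuation_le_one_iff t).mpr htA
  have h3 : A.valuation (t * t⁻¹) < 1 := by
    rw [map_mul]
    exact mul_lt_one_of_nonneg_of_lt_one_right h2 zero_le h1
  rw [mul_inv_cancel₀ ht0, map_one] at h3
  exact lt_irrefl _ h3

lemma exists_place_red {Ω : Type*} [Field Ω] [Algebra (ZMod ℓ) Ω] [DecidableEq Ω] {t y : Ω}
    (ht : Transcendental (ZMod ℓ) t) (h : (W⁄Ω).Nonsingular t y) :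
    ∃ A : ValuationSubring (AlgebraicClosure Ω), ∀ (a b c : ℤ) (x' y' : Ω)
    (h' : (W⁄Ω).Nonsingular x' y'), a • frP W Ω (frP W Ω (Point.some t y h)) +
      b • frP W Ω (Point.some t y h) + c • Point.some t y h = Point.some x' y' h' →
      algebraMap Ω (AlgebraicClosure Ω) x' ∉ A := by
  classical
  let L := AlgebraicClosure Ω
  have htL : Transcendental (ZMod ℓ) (algebraMap Ω L t) := by
    rw [transcendental_algebraMap_iff (algebraMap Ω L).injective]; exact ht
  obtain ⟨A, hA⟩ := exists_place htL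
  refine ⟨A, ?_⟩
  intro a b c x' y' h' hQ
  let ι : Ω →ₐ[ZMod ℓ] L := IsScalarTower.toAlgHom (ZMod ℓ) Ω L
  have hchar : CharP L ℓ := charP_of_injective_algebraMap (algebraMap (ZMod ℓ) L).injective ℓ
  have hcharA : CharP A ℓ := by
    have : Function.Injective A.subtype := Subtype.val_injective
    exact (A.subtype.charP_iff this ℓ).mpr hchar
  let f : ZMod ℓ →+* A := ZMod.castHom (dvd_refl ℓ) A
  have gr : GoodRed A (W⁄L) ((W.map f).map (IsLocalRing.residue A)) :=
    { WA := W.map f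
      hE := by
        rw [WeierstrassCurve.map_map]
        have : A.subtype.comp f = algebraMap (ZMod ℓ) L := Subsingleton.elim _ _
        rw [this]; rfl
      hE' := rfl
      hΔ := by
        rw [WeierstrassCurve.map_Δ]; exact W.isUnit_Δ.map f }
  have hpow : ∀ n : ℕ, n ≠ 0 → (algebraMap Ω L t) ^ n ∉ A := by
    intro n hn hmem
    apply hA
    have h1 := (A.valuation_le_one_iff _).mpr hmem
    rw [map_pow] at h1
    exact (A.valuation_le_one_iff _).mp ((pow_le_one_iff hn).mp h1)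
  have hred0 : ∀ (x' y' : Ω) (h' : (W⁄Ω).Nonsingular x' y'), algebraMap Ω L x' ∉ A →
      gr.red (Point.map (W' := W) ι (Point.some x' y' h')) = 0 := by
    intro x' y' h' hx'
    rw [map_some]
    exact gr.red_some_of_notMem hx' _
  have hP := hred0 t y h hA
  have hsome : ∀ (x' y' : Ω) (h' : (W⁄Ω).Nonsingular x' y'), frP W Ω (Point.some x' y' h') =
      Point.some (x' ^ ℓ) (y' ^ ℓ) (by
        have := (WeierstrassCurve.Affine.baseChange_nonsingular W (f := fr ℓ Ω)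
          (fr ℓ Ω).injective x' y').mpr h'
        rwa [fr_apply, fr_apply] at this) := fun x' y' h' => frP_some h' _
  have hℓ0 : ℓ ≠ 0 := (Fact.out : ℓ.Prime).ne_zero
  have hφP : gr.red (Point.map (W' := W) ι (frP W Ω (Point.some t y h))) = 0 := by
    rw [hsome]
    apply hred0
    rw [map_pow]
    exact hpow ℓ hℓ0
  have hφφP : gr.red (Point.map (W' := W) ι (frP W Ω (frP W Ω (Point.some t y h)))) = 0 := by
    rw [hsome, hsome]
    apply hred0
    rw [map_pow, map_pow, ← pow_mul]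
    exact hpow _ (mul_ne_zero hℓ0 hℓ0)
  have hredQ : gr.red (Point.map (W' := W) ι (Point.some x' y' h')) = 0 := by
    rw [← hQ]
    rw [map_add, map_add, map_add, map_add, map_zsmul, map_zsmul, map_zsmul, map_zsmul, map_zsmul,
      map_zsmul, hP, hφP, hφφP, zsmul_zero, zsmul_zero, zsmul_zero, add_zero, add_zero]
  intro hxA
  rw [map_some] at hredQ
  rcases (gr.red_eq_zero_iff _).mp hredQ with h0 | ⟨x, y, hxy, he, hx⟩
  · exact some_ne_zero _ h0
  · rw [Point.some.injEq] at he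
    exact hx (he.1 ▸ hxA)

lemma transcendental_of_comb {Ω : Type*} [Field Ω] [Algebra (ZMod ℓ) Ω] [DecidableEq Ω] {t y : Ω}
    (ht : Transcendental (ZMod ℓ) t) (h : (W⁄Ω).Nonsingular t y) (a b c : ℤ) {x' y' : Ω}
    (h' : (W⁄Ω).Nonsingular x' y') (hQ : a • frP W Ω (frP W Ω (Point.some t y h)) +
      b • frP W Ω (Point.some t y h) + c • Point.some t y h = Point.some x' y' h') :
    Transcendental (ZMod ℓ) x' := by
  obtain ⟨A, hA⟩ := exists_place_red ht h
  intro halg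
  apply hA a b c x' y' h' hQ
  obtain ⟨f, hf, hfx⟩ := halg.isIntegral
  by_contra hx
  set z := algebraMap Ω (AlgebraicClosure Ω) x' with hz
  have hfz : aeval z f = 0 := by
    rw [hz, aeval_algebraMap_apply]
    have : aeval x' f = 0 := hfx
    rw [this, _root_.map_zero]
  have hv : 1 < A.valuation z := by rw [← not_le, A.valuation_le_one_iff]; exact hx
  have hint : ∀ a : ZMod ℓ, A.valuation (algebraMap (ZMod ℓ) (AlgebraicClosure Ω) a) ≤ 1 := by
    intro a
    rw [A.valuation_le_one_iff]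
    obtain ⟨n, rfl⟩ := ZMod.natCast_zmod_surjective a
    rw [map_natCast]
    exact natCast_mem A n
  rw [aeval_eq_sum_range, Finset.sum_range_succ, coeff_natDegree, hf.leadingCoeff, one_smul] at hfz
  have h1 : A.valuation (∑ i ∈ Finset.range f.natDegree, f.coeff i • z ^ i) <
      A.valuation (z ^ f.natDegree) := by
    rw [map_pow]
    refine A.valuation.map_sum_lt (pow_ne_zero _ (zero_lt_one.trans hv).ne') fun i hi => ?_
    rw [Algebra.smul_def, map_mul, map_pow]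
    exact lt_of_le_of_lt (mul_le_of_le_one_left' (hint _))
      (pow_lt_pow_right₀ hv (Finset.mem_range.mp hi))
  have h2 := Valuation.map_add_eq_of_lt_right _ h1
  rw [hfz, _root_.map_zero] at h2
  rw [← h2] at h1
  exact absurd h1 (not_lt.mpr zero_le)

lemma eq_zero_of_ht_zero {Ω : Type*} [Field Ω] [Algebra (ZMod ℓ) Ω] [DecidableEq Ω] {t y : Ω}
    (ht : Transcendental (ZMod ℓ) t) (h : (W⁄Ω).Nonsingular t y) (a b c : ℤ)
    (hQ : HasHt (W := W) t (a • frP W Ω (frP W Ω (Point.some t y h)) +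
      b • frP W Ω (Point.some t y h) + c • Point.some t y h) 0) :
    a • frP W Ω (frP W Ω (Point.some t y h)) +
      b • frP W Ω (Point.some t y h) + c • Point.some t y h = 0 := by
  obtain ⟨p, q, ⟨hcop, c', hc', e1, e2⟩, hmax⟩ := hQ
  have hp : p.natDegree = 0 := by omega
  have hq : q.natDegree = 0 := by omega
  rw [eq_C_of_natDegree_eq_zero hp, aeval_C] at e1
  rw [eq_C_of_natDegree_eq_zero hq, aeval_C] at e2
  rcases hQc : a • frP W Ω (frP W Ω (Point.some t y h)) +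
      b • frP W Ω (Point.some t y h) + c • Point.some t y h with _ | ⟨x', y', h'⟩
  · rfl
  · exfalso
    rw [hQc] at e1 e2
    simp only [xRep_some, Matrix.cons_val_zero, Matrix.cons_val_one, mul_one] at e1 e2
    have hx' : x' = algebraMap (ZMod ℓ) Ω (p.coeff 0 / q.coeff 0) := by
      rw [map_div₀, e1, e2, mul_div_cancel_left₀ _ hc']
    apply transcendental_of_comb ht h a b c h' hQc
    rw [hx']
    exact isAlgebraic_algebraMap _

end Infinity

section Rel

variable {ℓ : ℕ} [Fact ℓ.Prime] {W : WeierstrassCurve (ZMod ℓ)} [W.IsElliptic]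
  {Ω : Type*} [Field Ω] [Algebra (ZMod ℓ) Ω] [Algebra (RatFunc (ZMod ℓ)) Ω]
  [IsScalarTower (ZMod ℓ) (RatFunc (ZMod ℓ)) Ω] [IsGalois (RatFunc (ZMod ℓ)) Ω] [IsSepClosed Ω]
  [DecidableEq Ω] {y : Ω} (h : (W⁄Ω).Nonsingular (tt (ZMod ℓ) Ω) y)

/-- height function -/
noncomputable def fh (Q : Iso W (Point.some _ _ h)) : ℤ := ((exists_hasHt h Q.2).choose : ℤ)

lemma fh_spec (Q : Iso W (Point.some _ _ h)) : ∃ d : ℕ, fh h Q = d ∧
    HasHt (W := W) (tt (ZMod ℓ) Ω) Q.1 d := ⟨_, rfl, (exists_hasHt h Q.2).choose_spec⟩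

lemma fh_eq {Q : Iso W (Point.some _ _ h)} {d : ℕ} (hd : HasHt (W := W) (tt (ZMod ℓ) Ω) Q.1 d) :
    fh h Q = d := by
  obtain ⟨d', h1, h2⟩ := fh_spec h Q
  rw [h1, HasHt.unique transcendental_tt h2 hd]

lemma fh_par (Q Q' : Iso W (Point.some _ _ h)) :
    fh h (Q + Q') + fh h (Q - Q') = 2 * (fh h Q + fh h Q') := by
  obtain ⟨d₁, h₁, i₁⟩ := fh_spec h Q
  obtain ⟨d₂, h₂, i₂⟩ := fh_spec h Q'
  obtain ⟨d₃, h₃, i₃⟩ := fh_spec h (Q + Q')
  obtain ⟨d₄, h₄, i₄⟩ := fh_spec h (Q - Q')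
  rw [h₁, h₂, h₃, h₄]
  exact_mod_cast HasHt.parallelogram transcendental_tt i₁ i₂ i₃ i₄

/-- Frobenius on `Iso` -/
noncomputable def TT : Iso W (Point.some _ _ h) →+ Iso W (Point.some _ _ h) where
  toFun Q := ⟨frP W Ω Q.1, map_mem_Iso _ (fun σ z => (fr_comm (ℓ := ℓ)
    (σ.toAlgHom.restrictScalars (ZMod ℓ)) z).symm) Q.2⟩
  map_zero' := Subtype.ext (_root_.map_zero _)
  map_add' _ _ := Subtype.ext (map_add _ _ _)

/-- The generic point -/
noncomputable def Pg : Iso W (Point.some _ _ h) := ⟨Point.some _ _ h, self_mem_Iso _⟩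

lemma fh_TT (Q : Iso W (Point.some _ _ h)) : fh h (TT h Q) = ℓ * fh h Q := by
  obtain ⟨d, h₁, i₁⟩ := fh_spec h Q
  rw [h₁]
  exact_mod_cast fh_eq h (Q := TT h Q) i₁.frP

lemma fh_Pg : fh h (Pg h) = 1 := by
  exact_mod_cast fh_eq h (Q := Pg h) (hasHt_t h)

lemma fh_sub : fh h (Pg h - TT h (Pg h)) = Nat.card W.toAffine.Point :=
  fh_eq h (Q := Pg h - TT h (Pg h)) (hasHt_one_sub transcendental_tt h)

lemma fh_comp : fh h (Pg h - TT h (TT h (Pg h))) =
    fh h (Pg h - TT h (Pg h)) * fh h (Pg h + TT h (Pg h)) := by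
  have hmain := hasHt_one_sub (W := W) (transcendental_tt (k := ZMod ℓ) (Ω := Ω)) h
  rw [fh_sub]
  obtain ⟨d, h₁, i₁⟩ := fh_spec h (Pg h + TT h (Pg h))
  rw [h₁]
  obtain ⟨x', y', h', hQ, -⟩ := x_sub_eq (W := W) (transcendental_tt (k := ZMod ℓ) (Ω := Ω)) h
  have hx' : Transcendental (ZMod ℓ) x' := by
    refine transcendental_of_comb (W := W) (transcendental_tt (k := ZMod ℓ) (Ω := Ω)) h 0 (-1) 1 h'
      ?_
    rw [← hQ]
    simp [sub_eq_add_neg, add_comm]
  obtain ⟨θ, hθt, hθP⟩ := exists_theta_point (W := W) h h' hx'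
  have i₃ := i₁.comp (transcendental_tt (k := ZMod ℓ) (Ω := Ω)) θ (Q := Point.some x' y' h')
    (e := Nat.card W.toAffine.Point) (by rw [← hQ]; exact hmain) (by simpa using hθt)
    (some_ne_zero _)
  have e1 : Point.map (W' := W) θ (Pg h + TT h (Pg h) : Iso W (Point.some _ _ h)).1 =
      (Pg h - TT h (TT h (Pg h)) : Iso W (Point.some _ _ h)).1 ∨
      Point.map (W' := W) θ (Pg h + TT h (Pg h) : Iso W (Point.some _ _ h)).1 =
      -(Pg h - TT h (TT h (Pg h)) : Iso W (Point.some _ _ h)).1 := by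
    have e2 : Point.map (W' := W) θ (Pg h + TT h (Pg h) : Iso W (Point.some _ _ h)).1 =
      Point.map (W' := W) θ (Point.some _ _ h) +
        frP W Ω (Point.map (W' := W) θ (Point.some _ _ h)) := by
      rw [frP_map, ← map_add]; rfl
    have e3 : (Pg h - TT h (TT h (Pg h)) : Iso W (Point.some _ _ h)).1 =
      Point.some x' y' h' + frP W Ω (Point.some x' y' h') := by
      rw [← hQ, map_sub]
      show Point.some _ _ h - frP W Ω (frP W Ω (Point.some _ _ h)) = _
      abel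
    rw [e2, e3]
    rcases hθP with h5 | h5
    · left; rw [h5]
    · right; rw [h5, map_neg]; abel
  rcases e1 with e1 | e1
  · rw [e1] at i₃
    rw [fh_eq h i₃]
    push_cast; ring
  · rw [e1] at i₃
    have i₄ : HasHt (W := W) (tt (ZMod ℓ) Ω) (-(Pg h - TT h (TT h (Pg h)) :
      Iso W (Point.some _ _ h)).1) (d * Nat.card W.toAffine.Point) := i₃
    rw [← quad_neg (fh_par h), fh_eq h (Q := -(Pg h - TT h (TT h (Pg h)))) i₄]
    push_cast; ring

variable (W) in
/-- The trace of Frobenius is `ℓ + 1 - #E(F_ℓ)`. -/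
theorem generic_rel : frP W Ω (frP W Ω (Point.some _ _ h)) - W.traceOfFrobenius •
    frP W Ω (Point.some _ _ h) + (ℓ : ℤ) • Point.some _ _ h = 0 := by
  have ha : W.traceOfFrobenius = 1 + (ℓ : ℤ) - fh h (Pg h - TT h (Pg h)) := by
    rw [fh_sub, WeierstrassCurve.traceOfFrobenius, WeierstrassCurve.card, Nat.card_zmod]; ring
  have h0 := quad_char (fh_par h) (TT h) (fh_TT h) (fh_Pg h) (fh_comp h) ha
  obtain ⟨d, h₁, i₁⟩ := fh_spec h (TT h (TT h (Pg h)) - W.traceOfFrobenius • TT h (Pg h) +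
    (ℓ : ℤ) • Pg h)
  rw [h0] at h₁
  have hd : d = 0 := by exact_mod_cast h₁.symm
  subst hd
  have e : (TT h (TT h (Pg h)) - W.traceOfFrobenius • TT h (Pg h) +
    (ℓ : ℤ) • Pg h : Iso W (Point.some _ _ h)).1 =
    (1 : ℤ) • frP W Ω (frP W Ω (Point.some _ _ h)) + (-W.traceOfFrobenius) •
    frP W Ω (Point.some _ _ h) + (ℓ : ℤ) • Point.some _ _ h := by
    rw [one_smul, neg_smul, ← sub_eq_add_neg]
    rfl
  rw [e] at i₁
  have := eq_zero_of_ht_zero (W := W) transcendental_tt h _ _ _ i₁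
  rw [one_smul, neg_smul, ← sub_eq_add_neg] at this
  exact this

include h in
/-- Hasse bound -/
theorem bound_aux : W.traceOfFrobenius ^ 2 ≤ 4 * (ℓ : ℤ) := by
  have ha : W.traceOfFrobenius = 1 + (ℓ : ℤ) - fh h (Pg h - TT h (Pg h)) := by
    rw [fh_sub, WeierstrassCurve.traceOfFrobenius, WeierstrassCurve.card, Nat.card_zmod]; ring
  exact quad_bound (fh_par h) (fun Q => by
    obtain ⟨d, h₁, -⟩ := fh_spec h Q
    rw [h₁]; positivity) (TT h) (fh_TT h) (fh_Pg h) ha

end Rel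

section Final

variable {ℓ : ℕ} [Fact ℓ.Prime] (W : WeierstrassCurve (ZMod ℓ)) [W.IsElliptic]

/-- The separable closure of `𝔽_ℓ(x)`. -/
abbrev Om (ℓ : ℕ) [Fact ℓ.Prime] : Type := SeparableClosure (RatFunc (ZMod ℓ))

/-- **Hasse bound**. -/
theorem hasse_bound : W.traceOfFrobenius ^ 2 ≤ 4 * (ℓ : ℤ) := by
  classical
  obtain ⟨y, h⟩ := exists_generic_y (Ω := Om ℓ) W
  exact bound_aux h

variable {W}

/-- The characteristic equation for points with transcendental coordinates. -/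
theorem rel_of_transcendental {L : Type*} [Field L] [Algebra (ZMod ℓ) L] [IsSepClosed L]
    [DecidableEq L] {x y : L} (h : (W⁄L).Nonsingular x y) (hx : Transcendental (ZMod ℓ) x) :
    frP W L (frP W L (Point.some x y h)) - W.traceOfFrobenius • frP W L (Point.some x y h) +
      (ℓ : ℤ) • Point.some x y h = 0 := by
  classical
  obtain ⟨y₀, h₀⟩ := exists_generic_y (Ω := Om ℓ) W
  obtain ⟨θ, hθt, hθP⟩ := exists_theta_point (W := W) h₀ h hx
  have hrel := congrArg (Point.map (W' := W) θ) (generic_rel W h₀)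
  rw [map_add, map_sub, map_zsmul, map_zsmul, ← frP_map, ← frP_map, _root_.map_zero] at hrel
  rcases hθP with h5 | h5
  · rw [h5] at hrel
    exact hrel
  · rw [h5, map_neg, map_neg, smul_neg, smul_neg, ← neg_sub', ← neg_add, neg_eq_zero] at hrel
    exact hrel

variable (W) in
/-- **The characteristic equation of Frobenius.** -/
theorem frobenius_char {K : Type*} [Field K] [Algebra (ZMod ℓ) K] [DecidableEq K]
    (Q : (W⁄K).Point) :
    frP W K (frP W K Q) - W.traceOfFrobenius • frP W K Q + (ℓ : ℤ) • Q = 0 := by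
  classical
  let L := AlgebraicClosure (RatFunc K)
  let u : L := algebraMap (RatFunc K) L RatFunc.X
  have hu : Transcendental K u := by
    rw [transcendental_algebraMap_iff (algebraMap (RatFunc K) L).injective]
    exact RatFunc.transcendental_X
  have huk : ∀ x : L, Transcendental K x → Transcendental (ZMod ℓ) x := by
    intro x hx halg
    exact hx (IsAlgebraic.tower_top K halg)
  have hWL : (W.map (algebraMap (ZMod ℓ) L)).IsElliptic := inferInstance
  obtain ⟨v, huv⟩ : ∃ v : L, (W⁄L).Nonsingular u v :=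
    exists_point_of_x (W.map (algebraMap (ZMod ℓ) L)) u
  let R₁ : (W⁄L).Point := Point.some u v huv
  have hrel : ∀ R : (W⁄L).Point, (∀ (x y : L) (h : (W⁄L).Nonsingular x y),
      R = Point.some x y h → Transcendental K x) → frP W L (frP W L R) -
      W.traceOfFrobenius • frP W L R + (ℓ : ℤ) • R = 0 := by
    intro R hR
    rcases R with _ | ⟨x, y, h⟩
    · rw [← zero_def, _root_.map_zero, _root_.map_zero, zsmul_zero, zsmul_zero, sub_zero, add_zero]
    · exact rel_of_transcendental h (huk x (hR x y h rfl))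
  -- the algebraic points
  let F := algebraicClosure K L
  have hF : IsAlgClosed F := (inferInstance : IsAlgClosure K F).isAlgClosed
  have hWF : (W⁄F).IsElliptic := inferInstanceAs (W.map (algebraMap (ZMod ℓ) F)).IsElliptic
  let ι : F →ₐ[ZMod ℓ] L := F.val.restrictScalars (ZMod ℓ)
  have hmem : ∀ (x y : L) (h : (W⁄L).Nonsingular x y), IsAlgebraic K x →
      Point.some x y h ∈ (Point.map (W' := W) ι).range := by
    intro x y h hx
    have hxF : x ∈ F := mem_algebraicClosure_iff.mpr hx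
    obtain ⟨y', hy'⟩ := exists_point_of_x (W⁄F) (⟨x, hxF⟩ : F)
    have h1 : Point.some x y h = Point.map (W' := W) ι (Point.some _ _ hy') ∨
      Point.some x y h = -Point.map (W' := W) ι (Point.some _ _ hy') := by
      rw [map_some]
      exact X_eq_iff.mp rfl
    rcases h1 with h1 | h1
    · exact ⟨_, h1.symm⟩
    · refine ⟨-Point.some _ _ hy', ?_⟩
      rw [map_neg, h1]
  let κ : K →ₐ[ZMod ℓ] L := IsScalarTower.toAlgHom (ZMod ℓ) K L
  let κ' : K →ₐ[ZMod ℓ] F := IsScalarTower.toAlgHom (ZMod ℓ) K F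
  have hQ : Point.map (W' := W) κ Q ∈ (Point.map (W' := W) ι).range := by
    refine ⟨Point.map (W' := W) κ' Q, ?_⟩
    rw [Point.map_map]
    rfl
  have e1 := hrel R₁ (by
    intro x y h he
    rw [Point.some.injEq] at he
    rw [← he.1]; exact hu)
  have e2 := hrel (R₁ + Point.map (W' := W) κ Q) (by
    intro x y h he hx
    have h1 := hmem x y h hx
    rw [← he] at h1
    have h2 : R₁ ∈ (Point.map (W' := W) ι).range := by
      have := AddSubgroup.sub_mem _ h1 hQ
      rwa [add_sub_cancel_right] at this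
    obtain ⟨S, hS⟩ := h2
    rcases S with _ | ⟨x', y', h'⟩
    · exact (some_ne_zero huv) hS.symm
    · rw [map_some, Point.some.injEq] at hS
      apply hu
      rw [← hS.1]
      exact mem_algebraicClosure_iff.mp x'.2)
  have e3 : frP W L (frP W L (Point.map (W' := W) κ Q)) - W.traceOfFrobenius •
      frP W L (Point.map (W' := W) κ Q) + (ℓ : ℤ) • Point.map (W' := W) κ Q = 0 := by
    have h3 := congrArg₂ (· - ·) e2 e1
    simp only [map_add, zsmul_add, sub_zero] at h3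
    rw [← h3]
    abel
  have e4 : Point.map (W' := W) κ (frP W K (frP W K Q) - W.traceOfFrobenius • frP W K Q +
      (ℓ : ℤ) • Q) = 0 := by
    rw [map_add, map_sub, map_zsmul, map_zsmul, ← frP_map, ← frP_map]; exact e3
  exact Point.map_injective (W' := W) κ (e4.trans (_root_.map_zero _).symm)

end Final

end Fermat.Agent.EllFrob
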